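import Fermat.Agent.Specialization.Riemann
import Fermat.Prelude.Def_AlgebraicCurve_Repartitions

/-!
# The duality theorem for a function field in any characteristic

The index of speciality is computed by adding one place at a time; Weil differentials are linear
functions on repartitions, and the largest divisor bounding a non zero one is canonical.
-/

set_option autoImplicit false
set_option linter.unusedSectionVars false

noncomputable section

open scoped Classical

namespace FLTAgent.Jac27.Finite.Geom

open AlgebraicCurve FLTAgent.Curves FLTAgent.Specialization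

variable {K F : Type*} [Field K] [Field F] [Algebra K F] [IsAlgClosed K] [IsFunctionField K F]

set_option quotPrecheck false in
local notation "RR" => ↥(repartitions K F)
set_option quotPrecheck false in
local notation "P0" => principalRepartitions K F

theorem repartition_finite_poles {α : Place K F → F} (hα : α ∈ repartitions K F) :
    {v : Place K F | ¬OrdGE v 0 (α v)}.Finite := by
  induction hα using Algebra.adjoin_induction with
  | mem x hx =>
    refine hx.subset fun v hv h => hv ?_
    rw [ordGE_iff_val, neg_zero]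
    simpa using h
  | algebraMap f =>
    refine (finite_poles (K := K) f).subset fun v hv => ?_
    by_contra h
    exact hv (ordGE_of_le (not_lt.1 h))
  | add x y _ _ hx hy =>
    refine (hx.union hy).subset fun v hv => ?_
    by_contra h
    simp only [Set.mem_union, Set.mem_ofPred_eq, not_or, not_not] at h
    exact hv (h.1.add h.2)
  | mul x y _ _ hx hy =>
    refine (hx.union hy).subset fun v hv => ?_
    by_contra h
    simp only [Set.mem_union, Set.mem_ofPred_eq, not_or, not_not] at h
    exact hv (by simpa using h.1.mul h.2)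

theorem mem_repartitionsOf {D : Divisor K F} {α : RR} :
    α ∈ repartitionsOf D ↔ ∀ v, OrdGE v (-D v) ((α : Place K F → F) v) :=
  mem_repartitionsOf_iff

theorem exists_le_mem (D : Divisor K F) (α : RR) :
    ∃ E : Divisor K F, D ≤ E ∧ α ∈ repartitionsOf E := by
  have hf : {v : Place K F | ¬OrdGE v (-D v) ((α : Place K F → F) v)}.Finite := by
    refine ((repartition_finite_poles α.2).union D.support.finite_toSet).subset fun v hv => ?_
    by_contra h
    simp only [Set.mem_union, Set.mem_ofPred_eq, Finset.mem_coe, Finsupp.mem_support_iff, not_or,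
      not_not] at h
    exact hv (h.1.mono (by rw [h.2]; simp))
  refine ⟨D + Finsupp.onFinset hf.toFinset
    (fun v => if OrdGE v (-D v) ((α : Place K F → F) v) then 0 else
      max 0 (-D v - v.ord ((α : Place K F → F) v))) (fun v hv => ?_), fun v => ?_,
    mem_repartitionsOf.2 fun v => ?_⟩
  · rw [Set.Finite.mem_toFinset]
    intro h
    rw [if_pos h] at hv
    exact hv rfl
  · simp only [Finsupp.add_apply, Finsupp.onFinset_apply]
    split_ifs <;> omega
  · simp only [Finsupp.add_apply, Finsupp.onFinset_apply]
    split_ifs with h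
    · simpa using h
    · exact ordGE_of_le (by omega)

/-- The repartitions bounded by `D` and the principal ones. -/
def bounded (D : Divisor K F) : Submodule K RR := repartitionsOf D ⊔ P0

theorem bounded_mono {D E : Divisor K F} (h : D ≤ E) : bounded D ≤ bounded E :=
  sup_le_sup_right (repartitionsOf_mono h) _

/-- The index of speciality. -/
def iDim (D : Divisor K F) : ℤ := Module.finrank K (RR ⧸ bounded D)

theorem exists_delta (D : Divisor K F) (Q : Place K F) :
    ∃ δ : RR, δ ∈ repartitionsOf (D + Finsupp.single Q 1) ∧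
      repartitionsOf (D + Finsupp.single Q 1) ≤ repartitionsOf D ⊔ Submodule.span K {δ} ∧
      (δ ∈ bounded D ↔ ∃ f ∈ riemannRochSpace (D + Finsupp.single Q 1),
        Exact (D + Finsupp.single Q 1) Q f) := by
  obtain ⟨π, hπ0, hπ⟩ := exists_uniformizer Q
  set m : ℤ := -(D Q + 1)
  have hδ : Pi.single (M := fun _ => F) Q (π ^ m) ∈ repartitions K F :=
    mem_repartitions_of_finite_ord ((Set.finite_singleton Q).subset fun v hv => by
      by_contra h
      simp [Pi.single_eq_of_ne (show v ≠ Q from h)] at hv)
  have hord : Q.ord (π ^ m) = m := by rw [Place.ord_zpow, hπ, mul_one]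
  refine ⟨⟨_, hδ⟩, mem_repartitionsOf.2 fun v => ?_, fun α hα => ?_, ?_⟩
  · show OrdGE v (-(D + Finsupp.single Q 1 : Divisor K F) v) (Pi.single (M := fun _ => F) Q (π ^ m) v)
    rcases eq_or_ne v Q with rfl | hv
    · rw [Pi.single_eq_same]
      exact ordGE_of_le (by simp only [Finsupp.add_apply, Finsupp.single_eq_same, hord, m]; omega)
    · rw [Pi.single_eq_of_ne hv]
      exact ordGE_zero _ _
  · rw [mem_repartitionsOf] at hα
    have hQ := hα Q
    simp only [Finsupp.add_apply, Finsupp.single_eq_same] at hQ
    obtain ⟨c, hc⟩ := exists_residue_smul Q hπ (k := m) hQ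
    rw [Submodule.mem_sup]
    refine ⟨α - c • ⟨_, hδ⟩, mem_repartitionsOf.2 fun v => ?_, c • ⟨_, hδ⟩,
      Submodule.smul_mem _ _ (Submodule.mem_span_singleton_self _), sub_add_cancel _ _⟩
    show OrdGE v (-D v) ((α : Place K F → F) v - c • Pi.single (M := fun _ => F) Q (π ^ m) v)
    rcases eq_or_ne v Q with rfl | hv
    · rw [Pi.single_eq_same]
      exact hc.mono (by simp only [m]; omega)
    · rw [Pi.single_eq_of_ne hv, smul_zero, sub_zero]
      have := hα v
      rwa [Finsupp.add_apply, Finsupp.single_eq_of_ne hv, add_zero] at this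
  · constructor
    · intro h
      obtain ⟨a, ha, b, hb, hab⟩ := Submodule.mem_sup.1 h
      obtain ⟨f, hf⟩ := mem_principalRepartitions_iff.1 hb
      have hval : ∀ v, (a : Place K F → F) v + f = Pi.single (M := fun _ => F) Q (π ^ m) v :=
        fun v => by
          have := congrFun (congrArg Subtype.val hab) v
          simpa [hf] using this
      rw [mem_repartitionsOf] at ha
      refine ⟨f, mem_rrSpace.2 fun v => ?_, fun hex => ?_⟩
      · rw [show f = Pi.single (M := fun _ => F) Q (π ^ m) v - (a : Place K F → F) v by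
          rw [← hval v]; ring]
        rcases eq_or_ne v Q with rfl | hv
        · simp only [Pi.single_eq_same, Finsupp.add_apply, Finsupp.single_eq_same]
          exact (ordGE_of_le (by rw [hord])).sub ((ha v).mono (by omega))
        · simp only [Pi.single_eq_of_ne hv, Finsupp.add_apply, Finsupp.single_eq_of_ne hv,
            add_zero]
          exact (ordGE_zero _ _).sub (ha v)
      · have h1 : OrdGE Q (-D Q) f := hex.mono (by simp [Finsupp.add_apply])
        have h2 := (ha Q).add h1
        rw [hval Q, Pi.single_eq_same] at h2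
        have := h2.le_ord (zpow_ne_zero _ hπ0)
        omega
    · rintro ⟨f, hf, hex⟩
      obtain ⟨hf0, hfQ⟩ := (exact_iff hf).1 hex
      simp only [Finsupp.add_apply, Finsupp.single_eq_same] at hfQ
      obtain ⟨c, hc⟩ := exists_residue_smul Q hπ (k := m) (f := f) (ordGE_of_le (by omega))
      have hc0 : c ≠ 0 := fun h0 => by
        rw [h0, zero_smul, sub_zero] at hc
        have := hc.le_ord hf0
        omega
      have hP : algebraMap F RR f ∈ P0 := mem_principalRepartitions_iff.2 ⟨f, rfl⟩
      have hA : c • (⟨_, hδ⟩ : RR) - algebraMap F RR f ∈ repartitionsOf D :=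
        mem_repartitionsOf.2 fun v => by
          show OrdGE v (-D v) (c • Pi.single (M := fun _ => F) Q (π ^ m) v - f)
          rcases eq_or_ne v Q with rfl | hv
          · rw [Pi.single_eq_same, ← neg_sub]
            exact (hc.mono (by simp only [m]; omega)).neg
          · rw [Pi.single_eq_of_ne hv, smul_zero, zero_sub]
            refine OrdGE.neg ?_
            have := mem_rrSpace.1 hf v
            rwa [Finsupp.add_apply, Finsupp.single_eq_of_ne hv, add_zero] at this
      have hmem : c • (⟨_, hδ⟩ : RR) ∈ bounded D := by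
        rw [← sub_add_cancel (c • (⟨_, hδ⟩ : RR)) (algebraMap F RR f)]
        exact Submodule.add_mem_sup hA hP
      simpa [smul_smul, inv_mul_cancel₀ hc0] using (bounded D).smul_mem c⁻¹ hmem

theorem le_add_single (D : Divisor K F) (Q : Place K F) : D ≤ D + Finsupp.single Q 1 := fun v => by
  rw [Finsupp.add_apply, Finsupp.single_apply]
  split_ifs <;> omega

theorem bounded_step (D : Divisor K F) (Q : Place K F) (δ : RR)
    (h1 : δ ∈ repartitionsOf (D + Finsupp.single Q 1))
    (h2 : repartitionsOf (D + Finsupp.single Q 1) ≤ repartitionsOf D ⊔ Submodule.span K {δ}) :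
    bounded (D + Finsupp.single Q 1) = bounded D ⊔ Submodule.span K {δ} := by
  refine le_antisymm (sup_le (h2.trans ?_) (le_sup_of_le_left le_sup_right))
    (sup_le (bounded_mono (le_add_single D Q)) ?_)
  · exact sup_le (le_sup_of_le_left le_sup_left) le_sup_right
  · rw [Submodule.span_singleton_le_iff_mem]
    exact Submodule.mem_sup_left h1

theorem exact_iff_ell (D : Divisor K F) (Q : Place K F) :
    (∃ f ∈ riemannRochSpace (D + Finsupp.single Q 1), Exact (D + Finsupp.single Q 1) Q f) ↔
      ell (D + Finsupp.single Q 1) = ell D + 1 := by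
  have hle := ell_sub_le (le_add_single D Q)
  rw [map_add, degree_single'] at hle
  have hmono := ell_mono (le_add_single D Q)
  constructor
  · rintro ⟨f, hf, hex⟩
    rcases eq_or_lt_of_le hmono with h | h
    · exfalso
      have e : riemannRochSpace D = riemannRochSpace (D + Finsupp.single Q 1) :=
        Submodule.eq_of_le_of_finrank_le (rrSpace_le (le_add_single D Q))
          (by simp only [ell] at h; omega)
      rw [← e] at hf
      exact hex ((mem_rrSpace.1 hf Q).mono (by simp [Finsupp.add_apply]))
    · omega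
  · intro h
    by_contra hn
    push Not at hn
    have : riemannRochSpace (D + Finsupp.single Q 1) ≤ riemannRochSpace D := fun f hf =>
      mem_rrSpace.2 fun v => by
        rcases eq_or_ne v Q with rfl | hv
        · exact (not_not.1 (hn f hf)).mono (by simp [Finsupp.add_apply])
        · have := mem_rrSpace.1 hf v
          rwa [Finsupp.add_apply, Finsupp.single_eq_of_ne hv, add_zero] at this
    have h' := Submodule.finrank_mono this
    simp only [ell] at h
    omega

theorem exists_single_below {D E : Divisor K F} (h : D ≤ E)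
    (hd : Divisor.degree D < Divisor.degree E) :
    ∃ Q, D ≤ E - Finsupp.single Q 1 := by
  obtain ⟨Q, hQ⟩ := exists_pos_of_degree_pos (D := E - D) (by rw [map_sub]; omega)
  refine ⟨Q, fun v => ?_⟩
  have := h v
  rw [Finsupp.sub_apply] at hQ ⊢
  rw [Finsupp.single_apply]
  split_ifs with hv
  · subst hv; omega
  · omega

theorem bounded_eq_of_le {D E : Divisor K F} (h : D ≤ E) (hD : rBound K F ≤ Divisor.degree D) :
    bounded D = bounded E := by
  obtain ⟨n, hn⟩ : ∃ n : ℕ, Divisor.degree E = Divisor.degree D + n :=
    ⟨(Divisor.degree E - Divisor.degree D).toNat, by have := degree_mono h; omega⟩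
  induction n generalizing E with
  | zero => rw [eq_of_le_of_degree_le h (by omega)]
  | succ n ih =>
    obtain ⟨Q, hQ⟩ := exists_single_below h (by omega)
    have hdeg : Divisor.degree (E - Finsupp.single Q 1) = Divisor.degree D + n := by
      rw [map_sub, degree_single', hn]; push_cast; ring
    rw [ih hQ hdeg]
    set G := E - Finsupp.single Q 1
    obtain ⟨δ, h1, h2, h3⟩ := exists_delta G Q
    have hex : δ ∈ bounded G := h3.2 ((exact_iff_ell G Q).2 (by
      rw [ell_eq (by omega : rBound K F ≤ Divisor.degree G),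
        ell_eq (G := G + Finsupp.single Q 1) (by rw [map_add, degree_single']; omega),
        map_add, degree_single']
      ring))
    rw [show E = G + Finsupp.single Q 1 by simp [G], bounded_step G Q δ h1 h2, eq_comm,
      sup_eq_left, Submodule.span_singleton_le_iff_mem]
    exact hex

theorem bounded_eq_top {D : Divisor K F} (hD : rBound K F ≤ Divisor.degree D) :
    bounded D = ⊤ := by
  refine eq_top_iff.2 fun α _ => ?_
  obtain ⟨E, hE, hα⟩ := exists_le_mem D α
  rw [bounded_eq_of_le hE hD]
  exact Submodule.mem_sup_left hα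

theorem index_large {D : Divisor K F} (hD : rBound K F ≤ Divisor.degree D) :
    Module.Finite K (RR ⧸ bounded D) ∧
      iDim D = ell D - Divisor.degree D - 1 + rGenus K F := by
  have hs : Subsingleton (RR ⧸ bounded D) :=
    Submodule.Quotient.subsingleton_iff.2 (bounded_eq_top hD)
  exact ⟨.of_finite, by rw [iDim, Module.finrank_zero_of_subsingleton, ell_eq hD]; ring⟩

theorem exists_place : Nonempty (Place K F) := by
  obtain ⟨x, hx, -⟩ := IsFunctionField.exists_transcendental (K := K) (F := F)
  obtain ⟨v, -⟩ := exists_ord_pos (K := K) hx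
  exact ⟨v⟩

theorem index_formula (D : Divisor K F) :
    Module.Finite K (RR ⧸ bounded D) ∧
      iDim D = ell D - Divisor.degree D - 1 + rGenus K F := by
  obtain ⟨Q⟩ := exists_place (K := K) (F := F)
  obtain ⟨n, hn⟩ : ∃ n : ℕ, rBound K F ≤ Divisor.degree D + n :=
    ⟨(rBound K F - Divisor.degree D).toNat, by omega⟩
  induction n generalizing D with
  | zero => exact index_large (by omega)
  | succ n ih =>
    obtain ⟨hfin, hi⟩ := ih (D + Finsupp.single Q 1) (by rw [map_add, degree_single']; omega)
    obtain ⟨δ, h1, h2, h3⟩ := exists_delta D Q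
    set D' := D + Finsupp.single Q 1
    let π : (RR ⧸ bounded D) →ₗ[K] RR ⧸ bounded D' :=
      Submodule.factor (bounded_mono (le_add_single D Q))
    have hπ : Function.Surjective π := Submodule.factor_surjective _
    have hker : LinearMap.ker π = Submodule.span K {Submodule.Quotient.mk δ} := by
      rw [show LinearMap.ker π = (bounded D').map (bounded D).mkQ from
        Submodule.ker_liftQ _ _ _ |>.trans (by rw [LinearMap.comp_id, Submodule.ker_mkQ]),
        show bounded D' = _ from bounded_step D Q δ h1 h2, Submodule.map_sup, Submodule.mkQ_map_self,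
        bot_sup_eq, Submodule.map_span, Set.image_singleton, Submodule.mkQ_apply]
    haveI : Module.Finite K ↥(LinearMap.ker π) := by rw [hker]; infer_instance
    haveI : Module.Finite K ((RR ⧸ bounded D) ⧸ LinearMap.ker π) :=
      Module.Finite.equiv (LinearMap.quotKerEquivOfSurjective π hπ).symm
    have hfinD : Module.Finite K (RR ⧸ bounded D) :=
      Module.Finite.of_submodule_quotient (LinearMap.ker π)
    haveI := hfinD
    refine ⟨hfinD, ?_⟩
    have e := LinearMap.finrank_range_add_finrank_ker π
    rw [LinearMap.range_eq_top.2 hπ, finrank_top] at e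
    have hdeg : Divisor.degree D' = Divisor.degree D + 1 := by
      rw [map_add, degree_single']
    have hle := ell_sub_le (le_add_single D Q)
    have hge := ell_mono (le_add_single D Q)
    rw [hdeg] at hle
    simp only [iDim] at hi ⊢
    simp only [D'] at hi hdeg e hle hge
    by_cases hδ : δ ∈ bounded D
    · have h0 : LinearMap.ker π = ⊥ := by
        rw [hker, (Submodule.Quotient.mk_eq_zero _).2 hδ, Submodule.span_zero_singleton]
      rw [h0, finrank_bot] at e
      have := (exact_iff_ell D Q).1 (h3.1 hδ)
      omega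
    · have h1' : Module.finrank K ↥(LinearMap.ker π) = 1 := by
        rw [hker]
        exact finrank_span_singleton (fun h => hδ ((Submodule.Quotient.mk_eq_zero _).1 h))
      have := fun h => hδ (h3.2 ((exact_iff_ell D Q).2 h))
      have hne : ell (D + Finsupp.single Q 1) ≠ ell D + 1 := this
      omega

/-! ### Weil differentials -/

/-- The Weil differentials bounded by `D`. -/
def weilDiff (D : Divisor K F) : Submodule K (Module.Dual K RR) := (bounded D).dualAnnihilator

theorem finrank_omega (D : Divisor K F) :
    Module.Finite K ↥(weilDiff D) ∧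
      (Module.finrank K ↥(weilDiff D) : ℤ) = ell D - Divisor.degree D - 1 + rGenus K F := by
  obtain ⟨hfin, hi⟩ := index_formula D
  have e := Submodule.dualQuotEquivDualAnnihilator (bounded D)
  refine ⟨Module.Finite.equiv e, ?_⟩
  rw [← hi, iDim, weilDiff, ← e.finrank_eq, Subspace.dual_finrank_eq]

theorem omega_anti {D E : Divisor K F} (h : D ≤ E) : weilDiff E ≤ weilDiff D :=
  Submodule.dualAnnihilator_anti (bounded_mono h)

/-- A differential multiplied by a function. -/
def mulW (φ : Module.Dual K RR) : F →ₗ[K] Module.Dual K RR where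
  toFun f := φ ∘ₗ LinearMap.mulLeft K (algebraMap F RR f)
  map_add' f g := LinearMap.ext fun α => by simp [add_mul]
  map_smul' c f := LinearMap.ext fun α => by
    simp only [RingHom.id_apply, LinearMap.coe_comp, Function.comp_apply, LinearMap.mulLeft_apply,
      LinearMap.smul_apply]
    rw [← map_smul]
    congr 1
    ext v
    simp [Algebra.smul_def, mul_assoc]

theorem mulW_apply (φ : Module.Dual K RR) (f : F) (α : RR) :
    mulW φ f α = φ (algebraMap F RR f * α) := rfl

theorem mulW_injective {φ : Module.Dual K RR} (hφ : φ ≠ 0) : Function.Injective (mulW φ) := by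
  rw [injective_iff_map_eq_zero]
  intro f hf
  by_contra hf0
  refine hφ (LinearMap.ext fun α => ?_)
  have := LinearMap.congr_fun hf (algebraMap F RR f⁻¹ * α)
  rwa [mulW_apply, ← mul_assoc, ← map_mul, mul_inv_cancel₀ hf0, map_one, one_mul] at this

theorem mulW_mem {W D : Divisor K F} {φ : Module.Dual K RR} (hφ : φ ∈ weilDiff W) {f : F}
    (hf : f ∈ riemannRochSpace (W - D)) : mulW φ f ∈ weilDiff D := by
  rw [weilDiff, Submodule.mem_dualAnnihilator] at hφ ⊢
  intro α hα
  rw [mulW_apply]
  refine hφ _ ?_
  obtain ⟨a, ha, b, hb, rfl⟩ := Submodule.mem_sup.1 hα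
  rw [mul_add]
  refine Submodule.add_mem_sup ?_ ?_
  · rw [mem_repartitionsOf] at ha ⊢
    intro v
    show OrdGE v (-W v) (f * (a : Place K F → F) v)
    refine ((mem_rrSpace.1 hf v).mul (ha v)).mono ?_
    rw [Finsupp.sub_apply]
    omega
  · obtain ⟨g, hg⟩ := mem_principalRepartitions_iff.1 hb
    exact mem_principalRepartitions_iff.2 ⟨f * g, funext fun v => by
      show f * (b : Place K F → F) v = f * g
      rw [hg]⟩

theorem degree_le_of_omega {D : Divisor K F} {φ : Module.Dual K RR} (hφ : φ ∈ weilDiff D)
    (hne : φ ≠ 0) : Divisor.degree D < rBound K F := by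
  by_contra h
  push Not at h
  rw [weilDiff, bounded_eq_top h, Submodule.dualAnnihilator_top, Submodule.mem_bot] at hφ
  exact hne hφ

theorem repartitionsOf_sup_le (D E : Divisor K F) :
    repartitionsOf (D ⊔ E) ≤ repartitionsOf D ⊔ repartitionsOf E := by
  intro α hα
  rw [mem_repartitionsOf] at hα
  let s : Place K F → F := fun v => if E v ≤ D v then (α : Place K F → F) v else 0
  have hs : s ∈ repartitions K F := mem_repartitions_of_finite
    ((repartition_finite_poles α.2).subset fun v hv => by
      simp only [Set.mem_ofPred_eq, s] at hv ⊢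
      intro h
      split_ifs at hv with h'
      · rw [ordGE_iff_val, neg_zero] at h
        exact hv (by simpa using h)
      · simp at hv)
  refine Submodule.mem_sup.2 ⟨⟨s, hs⟩, mem_repartitionsOf.2 fun v => ?_, α - ⟨s, hs⟩,
    mem_repartitionsOf.2 fun v => ?_, add_sub_cancel _ _⟩
  · show OrdGE v (-D v) (s v)
    simp only [s]
    split_ifs with h
    · exact (hα v).mono (by rw [Finsupp.sup_apply, max_eq_left h])
    · exact ordGE_zero _ _
  · show OrdGE v (-E v) ((α : Place K F → F) v - s v)
    simp only [s]
    split_ifs with h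
    · rw [sub_self]; exact ordGE_zero _ _
    · rw [sub_zero]
      exact (hα v).mono (by rw [Finsupp.sup_apply, max_eq_right (not_le.1 h).le])

theorem omega_sup {D E : Divisor K F} {φ : Module.Dual K RR} (h1 : φ ∈ weilDiff D)
    (h2 : φ ∈ weilDiff E) : φ ∈ weilDiff (D ⊔ E) := by
  rw [weilDiff, Submodule.mem_dualAnnihilator] at h1 h2 ⊢
  intro α hα
  have hle : bounded (D ⊔ E) ≤ bounded D ⊔ bounded E :=
    sup_le ((repartitionsOf_sup_le D E).trans (sup_le_sup le_sup_left le_sup_left))
      (le_sup_of_le_left le_sup_right)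
  obtain ⟨a, ha, b, hb, rfl⟩ := Submodule.mem_sup.1 (hle hα)
  rw [map_add, h1 a ha, h2 b hb, add_zero]

theorem exists_max {φ : Module.Dual K RR} {D₀ : Divisor K F} (hφ : φ ∈ weilDiff D₀) (hne : φ ≠ 0) :
    ∃ W : Divisor K F, φ ∈ weilDiff W ∧ ∀ D, φ ∈ weilDiff D → D ≤ W := by
  obtain ⟨m, ⟨W, hW, rfl⟩, hm⟩ := Int.exists_greatest_of_bdd
    (P := fun z : ℤ => ∃ D, φ ∈ weilDiff D ∧ Divisor.degree D = z)
    ⟨rBound K F, by rintro _ ⟨D, hD, rfl⟩; exact (degree_le_of_omega hD hne).le⟩ ⟨_, D₀, hφ, rfl⟩
  refine ⟨W, hW, fun D hD => ?_⟩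
  have h := eq_of_le_of_degree_le (le_sup_left : W ≤ W ⊔ D) (hm _ ⟨_, omega_sup hW hD, rfl⟩)
  exact h ▸ le_sup_right

theorem ell_eq_zero_of_degree_neg {D : Divisor K F} (h : Divisor.degree D < 0) : ell D = 0 := by
  by_contra hne
  have hpos : riemannRochSpace D ≠ ⊥ := fun hb => hne (by rw [ell, hb, finrank_bot, Nat.cast_zero])
  obtain ⟨f, hf, hf0⟩ := (Submodule.ne_bot_iff _).1 hpos
  have := degree_nonneg ((mem_rrSpace_iff_divOf hf0).1 hf)
  rw [map_add, degree_divOf] at this
  omega

theorem proportional {φ₁ φ₂ : Module.Dual K RR} {D₁ D₂ : Divisor K F} (h1 : φ₁ ∈ weilDiff D₁)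
    (h2 : φ₂ ∈ weilDiff D₂) (hn1 : φ₁ ≠ 0) (hn2 : φ₂ ≠ 0) :
    ∃ f : F, mulW φ₁ f = φ₂ := by
  obtain ⟨Q⟩ := exists_place (K := K) (F := F)
  set c := max 1 (max (rBound K F - Divisor.degree D₁) (max (rBound K F - Divisor.degree D₂)
    (3 * |rGenus K F| + |Divisor.degree D₁| + |Divisor.degree D₂| + 3)))
  set B : Divisor K F := Finsupp.single Q c
  have hB : Divisor.degree B = c := degree_single' Q c
  obtain ⟨hfin, hdim⟩ := finrank_omega (-B)
  haveI := hfin
  rw [ell_eq_zero_of_degree_neg (D := -B) (by rw [map_neg, hB]; omega), map_neg, hB] at hdim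
  let T : Divisor K F → Module.Dual K RR → Submodule K (Module.Dual K RR) :=
    fun D φ => (riemannRochSpace (D + B)).map (mulW φ)
  have hT : ∀ D φ, φ ∈ weilDiff D → φ ≠ 0 → rBound K F ≤ Divisor.degree D + c →
      T D φ ≤ weilDiff (-B) ∧ (Module.finrank K ↥(T D φ) : ℤ) = Divisor.degree D + c + 1 - rGenus K F :=
    fun D φ hφ hne hd => by
      refine ⟨?_, ?_⟩
      · rintro _ ⟨f, hf, rfl⟩
        exact mulW_mem hφ (by rwa [sub_neg_eq_add])
      · have hl := ell_eq (G := D + B) (by rw [map_add, hB]; exact hd)
        rw [map_add, hB, ell] at hl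
        rw [← (Submodule.equivMapOfInjective _ (mulW_injective hne) _).finrank_eq]
        exact hl
  obtain ⟨ha, ha'⟩ := hT D₁ φ₁ h1 hn1 (by omega)
  obtain ⟨hb, hb'⟩ := hT D₂ φ₂ h2 hn2 (by omega)
  haveI := Submodule.finiteDimensional_of_le ha
  haveI := Submodule.finiteDimensional_of_le hb
  have hne : T D₁ φ₁ ⊓ T D₂ φ₂ ≠ ⊥ := fun hb0 => by
    have h := Submodule.finrank_sup_add_finrank_inf_eq (T D₁ φ₁) (T D₂ φ₂)
    rw [hb0, finrank_bot] at h
    have h' := Submodule.finrank_mono (sup_le ha hb)
    have a1 := abs_nonneg (rGenus K F)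
    have a2 := le_abs_self (rGenus K F)
    have a4 := neg_abs_le (Divisor.degree D₁)
    have a6 := neg_abs_le (Divisor.degree D₂)
    omega
  obtain ⟨ψ, ⟨⟨f₁, -, hf1⟩, ⟨f₂, -, hf2⟩⟩, hψ⟩ := (Submodule.ne_bot_iff _).1 hne
  have hf20 : f₂ ≠ 0 := fun h => hψ (by rw [← hf2, h, map_zero])
  refine ⟨f₁ / f₂, LinearMap.ext fun α => ?_⟩
  have := LinearMap.congr_fun (hf1.trans hf2.symm) (algebraMap F RR f₂⁻¹ * α)
  rw [mulW_apply, mulW_apply, ← mul_assoc, ← mul_assoc, ← map_mul, ← map_mul,
    mul_inv_cancel₀ hf20, map_one, one_mul, ← div_eq_mul_inv] at this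
  rw [mulW_apply]
  exact this

/-- A canonical divisor. -/
theorem exists_canonical : ∃ W : Divisor K F, ∀ D : Divisor K F,
    ell D = Divisor.degree D + 1 - rGenus K F + ell (W - D) := by
  obtain ⟨Q⟩ := exists_place (K := K) (F := F)
  set c := 2 + |rGenus K F|
  have hd : Divisor.degree (Finsupp.single Q (-c) : Divisor K F) = -c := degree_single' _ _
  obtain ⟨hfin, hdim⟩ := finrank_omega (Finsupp.single Q (-c))
  haveI := hfin
  rw [ell_eq_zero_of_degree_neg (by rw [hd]; have := abs_nonneg (rGenus K F); omega), hd] at hdim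
  have hne : weilDiff (Finsupp.single Q (-c) : Divisor K F) ≠ ⊥ := fun hb => by
    rw [hb, finrank_bot] at hdim
    have := neg_abs_le (rGenus K F)
    omega
  obtain ⟨φ, hφ, hφ0⟩ := (Submodule.ne_bot_iff _).1 hne
  obtain ⟨W, hW, hmax⟩ := exists_max hφ hφ0
  refine ⟨W, fun D => ?_⟩
  have hmap : (riemannRochSpace (W - D)).map (mulW φ) = weilDiff D := by
    refine le_antisymm ?_ fun ψ hψ => ?_
    · rintro _ ⟨f, hf, rfl⟩
      exact mulW_mem hW hf
    · rcases eq_or_ne ψ 0 with rfl | hψ0
      · exact zero_mem _
      obtain ⟨f, rfl⟩ := proportional hW hψ hφ0 hψ0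
      have hf0 : f ≠ 0 := fun h => hψ0 (by rw [h, map_zero])
      refine ⟨f, (mem_rrSpace_iff_divOf hf0).2 ?_, rfl⟩
      have hle : D - divOf K f ≤ W := by
        refine hmax _ ?_
        have := mulW_mem (D := D - divOf K f) hψ (f := f⁻¹) ((mem_rrSpace_iff_divOf
          (inv_ne_zero hf0)).2 (fun v => by
            simp only [Finsupp.add_apply, Finsupp.sub_apply, divOf_apply, Place.ord_inv,
              Finsupp.coe_zero, Pi.zero_apply]
            omega))
        convert this using 1
        exact LinearMap.ext fun α => by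
          rw [mulW_apply, mulW_apply, ← mul_assoc, ← map_mul, mul_inv_cancel₀ hf0, map_one,
            one_mul]
      intro v
      have := hle v
      simp only [Finsupp.sub_apply, Finsupp.add_apply, Finsupp.coe_zero, Pi.zero_apply] at this ⊢
      omega
  have h1 := (finrank_omega D).2
  rw [← hmap, ← (Submodule.equivMapOfInjective _ (mulW_injective hφ0) _).finrank_eq] at h1
  simp only [ell] at h1 ⊢
  omega

theorem rGenus_nonneg : 0 ≤ rGenus K F := by
  obtain ⟨W, hW⟩ := exists_canonical (K := K) (F := F)
  have h := hW 0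
  rw [map_zero, sub_zero, ell, finrank_rrSpace_zero] at h
  simp only [ell] at h
  omega

/-- The canonical class: dimensions in degree `2g - 2` and beyond. -/
theorem exists_canonical_class : ∃ W : Divisor K F,
    Divisor.degree W = 2 * rGenus K F - 2 ∧ ell W = rGenus K F ∧
    (∀ D : Divisor K F, 2 * rGenus K F - 2 < Divisor.degree D →
      ell D = Divisor.degree D + 1 - rGenus K F) ∧
    ∀ D : Divisor K F, Divisor.degree D = 2 * rGenus K F - 2 →
      (Divisor.IsPrincipal (W - D) → ell D = rGenus K F) ∧
      (¬ Divisor.IsPrincipal (W - D) → ell D = rGenus K F - 1) := by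
  obtain ⟨W, hW⟩ := exists_canonical (K := K) (F := F)
  have h0 := hW 0
  have h1 : ell (0 : Divisor K F) = 1 := by rw [ell, finrank_rrSpace_zero, Nat.cast_one]
  rw [map_zero, sub_zero, h1] at h0
  have hW' := hW W
  rw [sub_self, h1] at hW'
  refine ⟨W, by omega, by omega, fun D hD => ?_, fun D hD => ⟨fun hp => ?_, fun hp => ?_⟩⟩
  · have := hW D
    rw [ell_eq_zero_of_degree_neg (D := W - D) (by rw [map_sub]; omega)] at this
    omega
  · obtain ⟨f, hf, e⟩ := isPrincipal_iff.1 hp
    have := hW D
    have h2 : ell (W - D) = 1 := by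
      rw [e, ← h1, ← ell_sub_divOf (divOf K f) hf, sub_self]
    omega
  · have := hW D
    have h2 : ell (W - D) = 0 := by
      by_contra hne
      have hb : riemannRochSpace (W - D) ≠ ⊥ := fun h => hne (by
        rw [ell, h, finrank_bot, Nat.cast_zero])
      obtain ⟨f, hf, hf0⟩ := (Submodule.ne_bot_iff _).1 hb
      have h3 := (mem_rrSpace_iff_divOf hf0).1 hf
      have h4 := eq_of_le_of_degree_le h3 (by
        rw [map_add, degree_divOf, map_sub, map_zero]; omega)
      refine hp (isPrincipal_iff.2 ⟨f⁻¹, inv_ne_zero hf0, Finsupp.ext fun v => ?_⟩)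
      have := congrArg (fun E : Divisor K F => E v) h4
      simp only [Finsupp.add_apply, Finsupp.coe_zero, Pi.zero_apply, divOf_apply] at this ⊢
      rw [Place.ord_inv]
      omega
    omega

end FLTAgent.Jac27.Finite.Geom
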