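import Fermat.Agent.Jac27.Finite.Geom.Frobenius
import Fermat.Agent.Jac27.Finite.Geom.Duality
import Fermat.Agent.Jac27.Finite.Data

/-!
# Effective divisors fixed by a Frobenius

The fixed effective divisors in a fixed class are the lines of fixed sections; their weighted
numbers satisfy the recursion with the weighted numbers of fixed places.
-/

set_option autoImplicit false
set_option linter.unusedSectionVars false
set_option linter.style.haveILetI false

noncomputable section

open scoped Classical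

namespace FLTAgent.Jac27.Finite.Geom

open AlgebraicCurve FLTAgent.Curves FLTAgent.Specialization

variable {k F : Type*} [Field k] [Field F] [Algebra k F] [IsAlgClosed k] [IsFunctionField k F]
variable (Φ : Frob k F)

theorem exists_algebraMap_of_divOf_eq_zero {u : F} (hu : u ≠ 0) (h : divOf k u = 0) :
    ∃ c : k, u = algebraMap k F c := by
  have hu' : u ∈ riemannRochSpace (0 : Divisor k F) :=
    (mem_rrSpace_iff_divOf hu).2 (by rw [h, add_zero])
  have h1 : (1 : F) ∈ riemannRochSpace (0 : Divisor k F) := one_mem_rrSpace le_rfl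
  obtain ⟨c, hc⟩ := exists_smul_eq_of_finrank_eq_one (finrank_rrSpace_zero (K := k) (F := F))
    (x := (⟨1, h1⟩ : riemannRochSpace (0 : Divisor k F)))
    (fun e => one_ne_zero (congrArg Subtype.val e)) ⟨u, hu'⟩
  exact ⟨c, by rw [Algebra.algebraMap_eq_smul_one]; exact (congrArg Subtype.val hc).symm⟩

theorem exists_smul_of_divOf_eq {f f' : F} (hf : f ≠ 0) (hf' : f' ≠ 0)
    (h : divOf k f = divOf k f') : ∃ c : k, c ≠ 0 ∧ f' = c • f := by
  obtain ⟨c, hc⟩ := exists_algebraMap_of_divOf_eq_zero (k := k) (div_ne_zero hf' hf)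
    (by rw [divOf_div hf' hf, h, sub_self])
  refine ⟨c, fun h0 => ?_, by rw [Algebra.smul_def, ← hc, div_mul_cancel₀ _ hf]⟩
  rw [h0, map_zero] at hc
  exact div_ne_zero hf' hf hc

theorem divOf_smul {c : k} (hc : c ≠ 0) {f : F} (hf : f ≠ 0) :
    divOf k (c • f) = divOf k f := by
  rw [Algebra.smul_def, divOf_mul ((map_ne_zero (algebraMap k F)).2 hc) hf, divOf_algebraMap,
    zero_add]

/-! ### Fixed sections -/

/-- The fixed effective divisors in the class of `E`. -/
def fib (E : Divisor k F) : Set (Divisor k F) :=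
  {D | 0 ≤ D ∧ Φ.divisor D = D ∧ Divisor.IsPrincipal (D - E)}

theorem card_fib (E : Divisor k F) (hE : Divisor.IsPrincipal (Φ.divisor E - E)) :
    ((Φ.q : ℤ) - 1) * Nat.card (fib Φ E) = (Φ.q : ℤ) ^ (ell E).toNat - 1 := by
  obtain ⟨h, hh, he⟩ := isPrincipal_iff.1 hE
  have hmem : ∀ f ∈ riemannRochSpace E, h * Φ.φ f ∈ riemannRochSpace E := fun f hf => by
    rcases eq_or_ne f 0 with rfl | hf0
    · simp
    have hφ : Φ.φ f ≠ 0 := by simpa using hf0
    rw [mem_rrSpace_iff_divOf (mul_ne_zero hh hφ), divOf_mul hh hφ, ← he, ← Φ.divisor_divOf,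
      show Φ.divisor E - E + Φ.divisor (divOf k f) + E = Φ.divisor (divOf k f + E) by
        rw [map_add]; abel, Φ.divisor_nonneg]
    exact (mem_rrSpace_iff_divOf hf0).1 hf
  let ψ : riemannRochSpace E →+ riemannRochSpace E :=
    { toFun := fun f => ⟨h * Φ.φ f, hmem f f.2⟩
      map_zero' := Subtype.ext (by simp)
      map_add' := fun a b => Subtype.ext (by simp [mul_add]) }
  have hs : ∀ (a : k) (v : riemannRochSpace E), ψ (a • v) = a ^ Φ.q • ψ v := fun a v =>
    Subtype.ext (by
      show h * Φ.φ (a • (v : F)) = a ^ Φ.q • (h * Φ.φ v)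
      rw [Φ.map_smul, mul_smul_comm])
  have hinj : Function.Injective ψ := fun a b e => Subtype.ext (Φ.φ.injective
    (mul_left_cancel₀ hh (congrArg Subtype.val e)))
  have hcard := card_fixed_vectors Φ.hQ ψ hs hinj
  -- the divisor of a fixed section
  have hfix : ∀ f : F, f ∈ riemannRochSpace E → f ≠ 0 → h * Φ.φ f = f →
      divOf k f + E ∈ fib Φ E := fun f hf hf0 hff => by
    refine ⟨(mem_rrSpace_iff_divOf hf0).1 hf, ?_, isPrincipal_iff.2 ⟨f, hf0, by abel⟩⟩
    have hφ : Φ.φ f ≠ 0 := by simpa using hf0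
    calc Φ.divisor (divOf k f + E) = divOf k (Φ.φ f) + (Φ.divisor E - E) + E := by
          rw [map_add, Φ.divisor_divOf]; abel
      _ = divOf k f + E := by rw [he, add_comm (divOf k (Φ.φ f)), ← divOf_mul hh hφ, hff]
  have hsec : ∀ D : fib Φ E, ∃ f : F, f ∈ riemannRochSpace E ∧ f ≠ 0 ∧ h * Φ.φ f = f ∧
      divOf k f + E = (D : Divisor k F) := fun D => by
    obtain ⟨hD0, hDfix, hDp⟩ := D.2
    obtain ⟨f, hf0, hf⟩ := isPrincipal_iff.1 hDp
    have hφ : Φ.φ f ≠ 0 := by simpa using hf0
    have hmemf : f ∈ riemannRochSpace E := (mem_rrSpace_iff_divOf hf0).2 (by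
      rw [← hf, sub_add_cancel]; exact hD0)
    have hdiv : divOf k f = divOf k (h * Φ.φ f) := by
      rw [divOf_mul hh hφ, ← he, ← Φ.divisor_divOf, ← hf, map_sub, hDfix]
      abel
    obtain ⟨c, hc0, hc⟩ := exists_smul_of_divOf_eq hf0 (mul_ne_zero hh hφ) hdiv
    obtain ⟨a, ha⟩ := IsAlgClosed.exists_pow_nat_eq c⁻¹ (Nat.sub_pos_of_lt Φ.hQ.one_lt)
    have ha0 : a ≠ 0 := fun e => inv_ne_zero hc0 (by
      rw [← ha, e, zero_pow (Nat.sub_pos_of_lt Φ.hQ.one_lt).ne'])
    refine ⟨a • f, Submodule.smul_mem _ _ hmemf, smul_ne_zero ha0 hf0, ?_, ?_⟩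
    · rw [Φ.map_smul, mul_smul_comm, hc, smul_smul]
      congr 1
      rw [← Nat.sub_add_cancel (Nat.one_le_of_lt Φ.hQ.one_lt), pow_succ, ha, mul_right_comm,
        inv_mul_cancel₀ hc0, one_mul]
    · rw [divOf_smul ha0 hf0, ← hf, sub_add_cancel]
  choose s hs1 hs2 hs3 hs4 using hsec
  let Z := {v : riemannRochSpace E // ψ v = v}
  haveI : Finite Z := Nat.finite_of_card_ne_zero (by
    rw [hcard]; exact pow_ne_zero _ Φ.q_pos.ne')
  let U := {a : k // a ^ Φ.q = a ∧ a ≠ 0}
  let G : Option (fib Φ E × U) → Z := fun o => o.elim ⟨0, map_zero ψ⟩ fun x =>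
    ⟨⟨x.2.1 • s x.1, Submodule.smul_mem _ _ (hs1 _)⟩, Subtype.ext (by
      show h * Φ.φ (x.2.1 • s x.1) = x.2.1 • s x.1
      rw [Φ.map_smul, mul_smul_comm, hs3, x.2.2.1])⟩
  have hval : ∀ (o : Option (fib Φ E × U)),
      ((G o).1 : F) = o.elim 0 fun x => x.2.1 • s x.1 := by
    rintro (_ | x) <;> rfl
  have hG : Function.Bijective G := by
    constructor
    · intro o o' e
      have e' := congrArg (fun z : Z => (z.1 : F)) e
      simp only [hval] at e'
      rcases o with _ | ⟨D, a⟩ <;> rcases o' with _ | ⟨D', a'⟩ <;> simp only [Option.elim] at e'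
      · rfl
      · exact absurd e'.symm (smul_ne_zero a'.2.2 (hs2 _))
      · exact absurd e' (smul_ne_zero a.2.2 (hs2 _))
      · have hd : (D : Divisor k F) = D' := by
          rw [← hs4 D, ← hs4 D', ← divOf_smul a.2.2 (hs2 D), ← divOf_smul a'.2.2 (hs2 D'), e']
        obtain rfl := Subtype.ext hd
        rw [show a = a' from Subtype.ext (smul_left_injective k (hs2 D) e')]
    · rintro ⟨⟨f, hf⟩, hff⟩
      rcases eq_or_ne f 0 with rfl | hf0
      · exact ⟨none, Subtype.ext (Subtype.ext rfl)⟩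
      have hff' : h * Φ.φ f = f := congrArg Subtype.val hff
      set D : fib Φ E := ⟨_, hfix f hf hf0 hff'⟩
      obtain ⟨c, hc0, hc⟩ := exists_smul_of_divOf_eq (hs2 D) hf0
        (add_right_cancel (hs4 D))
      have hcq : c ^ Φ.q = c := by
        rw [hc, Φ.map_smul, mul_smul_comm, hs3] at hff'
        exact smul_left_injective k (hs2 D) hff'
      exact ⟨some (D, ⟨c, hcq, hc0⟩), Subtype.ext (Subtype.ext hc.symm)⟩
  haveI : Finite (fib Φ E × U) := by
    haveI := Finite.of_injective G hG.1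
    exact Finite.of_injective (some : fib Φ E × U → _) (Option.some_injective _)
  have hU : Nat.card U + 1 = Φ.q := by
    haveI : Finite {a : k // a ^ Φ.q = a} := Φ.hQ.fixed_finite.to_subtype
    have hins : {a : k | a ^ Φ.q = a} = insert 0 {a : k | a ^ Φ.q = a ∧ a ≠ 0} := Set.ext fun a => by
      rcases eq_or_ne a 0 with rfl | ha <;> simp_all [zero_pow Φ.q_pos.ne']
    have h1 := Set.ncard_insert_of_notMem (a := (0 : k))
      (s := {a : k | a ^ Φ.q = a ∧ a ≠ 0}) (by simp) (Φ.hQ.fixed_finite.subset fun a ha => ha.1)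
    rw [← hins, ← Nat.card_coe_set_eq, ← Nat.card_coe_set_eq] at h1
    exact h1.symm.trans Φ.hQ.card_fixed
  have hopt : Nat.card (fib Φ E) * Nat.card U + 1 = Φ.q ^ (ell E).toNat := by
    have h1 := Nat.card_congr (Equiv.ofBijective G hG)
    rw [Finite.card_option, Nat.card_prod] at h1
    rw [h1, hcard, ell, Int.toNat_natCast]
  have h1 := congrArg (Nat.cast : ℕ → ℤ) hU
  have h2 := congrArg (Nat.cast : ℕ → ℤ) hopt
  push_cast at h1 h2
  rw [← h2, ← h1]
  ring

/-! ### Finiteness -/

/-- Places fixed by an iterate. -/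
theorem fixed_iterate_finite {j : ℕ} (hj : 0 < j) :
    {v : Place k F | Φ.place^[j] v = v}.Finite := by
  simpa only [Φ.place_pow] using (Φ.pow j hj).fixed_places_finite

theorem fixed_apply {D : Divisor k F} (hD : Φ.divisor D = D) (i : ℕ) (v : Place k F) :
    D (Φ.place^[i] v) = D v := by
  induction i with
  | zero => rfl
  | succ i ih =>
    rw [Function.iterate_succ_apply']
    conv_lhs => rw [← hD]
    rw [Φ.divisor_apply, ih]

theorem card_support_le {D : Divisor k F} (h0 : 0 ≤ D) {n : ℕ}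
    (hn : Divisor.degree D = n) : D.support.card ≤ n := by
  rw [degree_eq_sum (s := D.support) subset_rfl] at hn
  have : ∑ _v ∈ D.support, (1 : ℤ) ≤ ∑ v ∈ D.support, D v :=
    Finset.sum_le_sum fun v hv => by
      have := Finsupp.mem_support_iff.1 hv
      have := h0 v
      simp only [Finsupp.coe_zero, Pi.zero_apply] at *
      omega
  simp at this
  omega

/-- The fixed effective divisors of a degree. -/
def effSet (n : ℕ) : Set (Divisor k F) :=
  {D | 0 ≤ D ∧ Φ.divisor D = D ∧ Divisor.degree D = n}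

theorem effSet_finite (n : ℕ) : (effSet Φ n).Finite := by
  set P : Set (Place k F) := ⋃ j ∈ Finset.Icc 1 n, {v | Φ.place^[j] v = v}
  have hP : P.Finite := (Finset.finite_toSet _).biUnion fun j hj =>
    fixed_iterate_finite Φ (Finset.mem_Icc.1 hj).1
  have hsupp : ∀ D ∈ effSet Φ n, ∀ v, D v ≠ 0 → v ∈ P := by
    rintro D ⟨h0, hD, hn⟩ v hv
    obtain ⟨a, ha, b, hb, hab, e⟩ := Finset.exists_ne_map_eq_of_card_lt_of_maps_to
      (s := Finset.range (n + 1)) (t := D.support) (f := fun i => Φ.place^[i] v)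
      (by rw [Finset.card_range]; exact Nat.lt_succ_of_le (card_support_le h0 hn))
      (fun i _ => Finsupp.mem_support_iff.2 (by rwa [fixed_apply Φ hD]))
    wlog hlt : a < b generalizing a b
    · exact this b hb a ha hab.symm e.symm (lt_of_le_of_ne (not_lt.1 hlt) hab.symm)
    refine Set.mem_biUnion (x := b - a) (Finset.mem_Icc.2 ⟨by omega, by
      have := Finset.mem_range.1 hb; omega⟩) ?_
    refine (Φ.place.injective.iterate a) ?_
    rw [← Function.iterate_add_apply, Nat.add_sub_cancel' hlt.le]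
    exact e.symm
  haveI := hP.fintype
  haveI : Finite ↥(effSet Φ n) := by
    refine Finite.of_injective (β := P → Set.Icc (0 : ℤ) n) (fun D v => ⟨D.1 v.1, D.2.1 _, ?_⟩) ?_
    · rcases eq_or_ne (D.1 v.1) 0 with h | h
      · rw [h]; exact Int.natCast_nonneg n
      · have hle : Finsupp.single v.1 (D.1 v.1) ≤ D.1 := fun w => by
          rw [Finsupp.single_apply]
          split_ifs with hw
          · rw [hw]
          · exact D.2.1 w
        have := degree_mono hle
        rw [degree_single', D.2.2.2] at this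
        exact this
    · intro D D' e
      refine Subtype.ext (Finsupp.ext fun v => ?_)
      by_cases hv : v ∈ P
      · exact congrArg Subtype.val (congrFun e ⟨v, hv⟩)
      · rw [not_imp_comm.1 (hsupp _ D.2 v) hv, not_imp_comm.1 (hsupp _ D'.2 v) hv]
  exact Set.toFinite _

/-- The fixed effective divisors of a degree, as a finset. -/
def eff (n : ℕ) : Finset (Divisor k F) := (effSet_finite Φ n).toFinset

theorem mem_eff {n : ℕ} {D : Divisor k F} :
    D ∈ eff Φ n ↔ 0 ≤ D ∧ Φ.divisor D = D ∧ Divisor.degree D = n :=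
  Set.Finite.mem_toFinset _

/-! ### Orbits -/

/-- The sum of `j` iterates of a place. -/
def orb (j : ℕ) (v : Place k F) : Divisor k F :=
  ∑ i ∈ Finset.range j, Finsupp.single (Φ.place^[i] v) 1

theorem orb_nonneg (j : ℕ) (v : Place k F) : 0 ≤ orb Φ j v :=
  Finset.sum_nonneg fun i _ => Finsupp.single_nonneg.2 Int.one_nonneg

theorem degree_orb (j : ℕ) (v : Place k F) : Divisor.degree (orb Φ j v) = j := by
  simp [orb, deg_eq_one]

theorem orb_fixed {j : ℕ} {v : Place k F} (hv : Φ.place^[j] v = v) :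
    Φ.divisor (orb Φ j v) = orb Φ j v := by
  set f : ℕ → Divisor k F := fun i => Finsupp.single (Φ.place^[i] v) 1
  have hstep : ∀ i, Φ.divisor (f i) = f (i + 1) := fun i => by
    simp only [f, Φ.divisor_single, Function.iterate_succ_apply']
  show Φ.divisor (∑ i ∈ Finset.range j, f i) = ∑ i ∈ Finset.range j, f i
  rw [map_sum, Finset.sum_congr rfl fun i _ => hstep i]
  have h1 := Finset.sum_range_succ' f j
  rw [Finset.sum_range_succ, show f j = f 0 by simp [f, hv]] at h1
  exact (add_right_cancel h1).symm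

theorem orb_mul {d : ℕ} {v : Place k F} (hv : Φ.place^[d] v = v) (t : ℕ) :
    orb Φ (d * t) v = t • orb Φ d v := by
  induction t with
  | zero => simp [orb]
  | succ t ih =>
    rw [mul_add, mul_one, succ_nsmul, ← ih]
    simp only [orb, Finset.sum_range_add]
    congr 1
    refine Finset.sum_congr rfl fun i _ => ?_
    have : Φ.place^[d * t] v = v := by
      rw [Function.iterate_mul]; exact Function.iterate_fixed hv t
    rw [add_comm (d * t), Function.iterate_add_apply, this]

theorem orb_apply_self (v : Place k F) :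
    orb Φ (Function.minimalPeriod Φ.place v) v v = 1 := by
  have hd : 0 < Function.minimalPeriod Φ.place v := by
    obtain ⟨r, hr, h⟩ := Φ.place_periodic v
    exact Function.IsPeriodicPt.minimalPeriod_pos hr h
  simp only [orb, Finsupp.finsetSum_apply, Finsupp.single_apply]
  rw [Finset.sum_eq_single 0]
  · simp
  · intro i hi hi0
    refine if_neg fun h => hi0 ?_
    exact Nat.eq_zero_of_dvd_of_lt
      (Function.isPeriodicPt_iff_minimalPeriod_dvd.1 (show Function.IsPeriodicPt Φ.place i v from h))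
      (Finset.mem_range.1 hi)
  · simp [hd]

theorem orb_le_iff {D : Divisor k F} (h0 : 0 ≤ D) (hD : Φ.divisor D = D) {j : ℕ} {v : Place k F}
    (hv : Φ.place^[j] v = v) : orb Φ j v ≤ D ↔ orb Φ j v v ≤ D v := by
  refine ⟨fun h => h v, fun h w => ?_⟩
  by_cases hw : ∃ i, Φ.place^[i] v = w
  · obtain ⟨i, rfl⟩ := hw
    rwa [fixed_apply Φ hD, fixed_apply Φ (orb_fixed Φ hv)]
  · have : orb Φ j v w = 0 := by
      simp only [orb, Finsupp.finsetSum_apply]
      exact Finset.sum_eq_zero fun i _ => Finsupp.single_eq_of_ne fun e => hw ⟨i, e.symm⟩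
    rw [this]
    exact h0 w

/-- The places fixed by the `j`-th iterate. -/
def fixP (j : ℕ) : Finset (Place k F) :=
  if hj : 0 < j then (fixed_iterate_finite Φ hj).toFinset else ∅

theorem mem_fixP {j : ℕ} (hj : 0 < j) {v : Place k F} :
    v ∈ fixP Φ j ↔ Φ.place^[j] v = v := by
  simp [fixP, hj]

theorem degree_eq_count {n : ℕ} {D : Divisor k F} (hD : D ∈ eff Φ n) :
    n = ∑ j ∈ Finset.Icc 1 n, ((fixP Φ j).filter fun v => orb Φ j v ≤ D).card := by
  obtain ⟨h0, hfix, hn⟩ := (mem_eff Φ).1 hD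
  have hJ : ∀ v, ((Finset.Icc 1 n).filter fun j => Φ.place^[j] v = v ∧ orb Φ j v ≤ D).card =
      (D v).toNat := fun v => by
    set d := Function.minimalPeriod Φ.place v
    have hd : 0 < d := by
      obtain ⟨r, hr, h⟩ := Φ.place_periodic v
      exact Function.IsPeriodicPt.minimalPeriod_pos hr h
    have hdv : Φ.place^[d] v = v := Function.iterate_minimalPeriod
    have hper : ∀ t, Φ.place^[d * t] v = v := fun t => by
      rw [Function.iterate_mul]; exact Function.iterate_fixed hdv t
    have hcoef : ∀ t : ℕ, (orb Φ (d * t) v ≤ D ↔ (t : ℤ) ≤ D v) := fun t => by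
      rw [orb_le_iff Φ h0 hfix (hper t), orb_mul Φ hdv t, Finsupp.smul_apply, orb_apply_self]
      simp
    rw [show ((D v).toNat) = (Finset.Icc 1 (D v).toNat).card by simp,
      ← Finset.card_image_of_injective (Finset.Icc 1 (D v).toNat)
        (f := fun t => d * t) (fun a b e => Nat.eq_of_mul_eq_mul_left hd e)]
    congr 1
    ext j
    simp only [Finset.mem_filter, Finset.mem_image, Finset.mem_Icc]
    constructor
    · rintro ⟨hj, hjv, hle⟩
      obtain ⟨t, rfl⟩ := Function.isPeriodicPt_iff_minimalPeriod_dvd.1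
        (show Function.IsPeriodicPt Φ.place j v from hjv)
      have := (hcoef t).1 hle
      have : t ≠ 0 := fun h => by rw [h, mul_zero] at hj; omega
      exact ⟨t, ⟨by omega, by omega⟩, rfl⟩
    · rintro ⟨t, ht, rfl⟩
      have hle := (hcoef t).2 (by omega)
      have := degree_mono hle
      rw [degree_orb, hn] at this
      exact ⟨⟨Nat.mul_pos hd ht.1, by omega⟩, hper t, hle⟩
  have hsum : (n : ℤ) = ∑ v ∈ D.support, ((D v).toNat : ℤ) := by
    rw [← hn, degree_eq_sum (s := D.support) subset_rfl]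
    exact Finset.sum_congr rfl fun v _ => (Int.toNat_of_nonneg (h0 v)).symm
  have hrw : ∀ j ∈ Finset.Icc 1 n, ((fixP Φ j).filter fun v => orb Φ j v ≤ D).card =
      (D.support.filter fun v => Φ.place^[j] v = v ∧ orb Φ j v ≤ D).card := fun j hj => by
    congr 1
    ext v
    simp only [Finset.mem_filter, mem_fixP Φ (Finset.mem_Icc.1 hj).1]
    refine ⟨fun h => ⟨Finsupp.mem_support_iff.2 fun e => ?_, h⟩, fun h => h.2⟩
    have h1 : (1 : ℤ) ≤ orb Φ j v v := by
      obtain ⟨j, rfl⟩ : ∃ i, j = i + 1 := ⟨j - 1, by have := (Finset.mem_Icc.1 hj).1; omega⟩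
      rw [orb, Finset.sum_range_succ', Finsupp.add_apply]
      have := Finset.sum_nonneg (s := Finset.range j)
        (f := fun i => Finsupp.single (Φ.place^[i + 1] v) (1 : ℤ) v)
        fun i _ => by rw [Finsupp.single_apply]; split_ifs <;> omega
      simp only [Finsupp.finsetSum_apply, Function.iterate_zero_apply, Finsupp.single_eq_same]
      omega
    have := h.2 v
    omega
  rw [Finset.sum_congr rfl hrw]
  simp only [Finset.card_filter]
  rw [Finset.sum_comm]
  simp only [← Finset.card_filter, hJ]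
  exact_mod_cast hsum

/-- The weighted number of fixed effective divisors. -/
def bW {R : Type*} [CommRing R] (w : Divisor k F → R) (n : ℕ) : R := ∑ D ∈ eff Φ n, w D

/-- The weighted number of fixed places. -/
def nW {R : Type*} [CommRing R] (w : Divisor k F → R) (j : ℕ) : R :=
  ∑ v ∈ fixP Φ j, w (orb Φ j v)

theorem recursion_weight {R : Type*} [CommRing R] (w : Divisor k F → R) (hw0 : w 0 = 1)
    (hw : ∀ D E, Φ.divisor D = D → Φ.divisor E = E → w (D + E) = w D * w E) :
    Recursion (bW Φ w) (nW Φ w) := by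
  refine ⟨?_, fun n => ?_⟩
  · rw [bW, show eff Φ 0 = {0} from Finset.ext fun D => ?_, Finset.sum_singleton, hw0]
    rw [mem_eff, Finset.mem_singleton]
    exact ⟨fun ⟨h, _, hd⟩ => (eq_of_le_of_degree_le h (by rw [hd, map_zero]; simp)).symm,
      fun h => by subst h; exact ⟨le_rfl, map_zero _, by simp⟩⟩
  have h1 : (n : R) * bW Φ w n = ∑ j ∈ Finset.Icc 1 n, ∑ v ∈ fixP Φ j,
      ∑ D ∈ (eff Φ n).filter fun D => orb Φ j v ≤ D, w D := by
    rw [bW, Finset.mul_sum]
    simp only [Finset.sum_filter]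
    rw [eq_comm, Finset.sum_congr rfl fun j _ => Finset.sum_comm, Finset.sum_comm]
    refine Finset.sum_congr rfl fun D hD => ?_
    conv_rhs => rw [degree_eq_count Φ hD, Nat.cast_sum, Finset.sum_mul]
    refine Finset.sum_congr rfl fun j _ => ?_
    rw [← Finset.sum_filter, Finset.sum_const, nsmul_eq_mul]
  rw [h1]
  refine Finset.sum_congr rfl fun j hj => ?_
  rw [nW, Finset.sum_mul]
  refine Finset.sum_congr rfl fun v hv => ?_
  rw [mem_fixP Φ (Finset.mem_Icc.1 hj).1] at hv
  rw [bW, Finset.mul_sum]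
  have hjn : ((n - j : ℕ) : ℤ) = (n : ℤ) - j := by
    have := (Finset.mem_Icc.1 hj).2; omega
  refine Finset.sum_nbij' (fun D => D - orb Φ j v) (fun E => orb Φ j v + E) ?_ ?_ ?_ ?_ ?_
  · intro D hD
    rw [Finset.mem_filter, mem_eff] at hD
    rw [mem_eff, sub_nonneg, map_sub, map_sub, hD.1.2.1, orb_fixed Φ hv,
      hD.1.2.2, degree_orb, hjn]
    exact ⟨hD.2, rfl, rfl⟩
  · intro E hE
    rw [mem_eff] at hE
    rw [Finset.mem_filter, mem_eff, map_add, map_add, hE.2.1, orb_fixed Φ hv,
      hE.2.2, degree_orb, hjn]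
    exact ⟨⟨add_nonneg (orb_nonneg Φ j v) hE.1, rfl, by ring⟩, le_add_of_nonneg_right hE.1⟩
  · intro D _; exact add_sub_cancel _ _
  · intro E _; exact add_sub_cancel_left _ _
  · intro D hD
    rw [Finset.mem_filter, mem_eff] at hD
    rw [← hw _ _ (orb_fixed Φ hv) (by rw [map_sub, hD.1.2.1, orb_fixed Φ hv]), add_sub_cancel]

end FLTAgent.Jac27.Finite.Geom
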