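import Fermat.Agent.Jac27.Finite.Geom.Frobenius

/-!
# Existence of a Frobenius with a fixed place

The field is generated by finitely many elements; a power of the Frobenius of the constants fixes
the coefficients of finitely many generators of their relations.
-/

set_option autoImplicit false
set_option linter.unusedSectionVars false
set_option linter.style.haveILetI false

noncomputable section

namespace FLTAgent.Jac27.Finite.Geom

open AlgebraicCurve FLTAgent.Curves FLTAgent.Specialization IntermediateField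

theorem isQ_prime (p : ℕ) [hp : Fact p.Prime] (k : Type*) [Field k] [Algebra (ZMod p) k]
    [Algebra.IsAlgebraic (ZMod p) k] : IsQ k p := by
  haveI : CharP k p := charP_of_injective_algebraMap (algebraMap (ZMod p) k).injective p
  refine ⟨hp.out.one_lt, CharP.cast_eq_zero k p, fun a b => add_pow_char a b p, fun a => ?_⟩
  haveI : FiniteDimensional (ZMod p) ↥(ZMod p)⟮a⟯ :=
    adjoin.finiteDimensional (Algebra.IsIntegral.isIntegral a)
  haveI : Finite ↥(ZMod p)⟮a⟯ := Module.finite_of_finite (ZMod p)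
  haveI := Fintype.ofFinite ↥(ZMod p)⟮a⟯
  have hc : Fintype.card ↥(ZMod p)⟮a⟯ = p ^ Module.finrank (ZMod p) ↥(ZMod p)⟮a⟯ := by
    rw [Module.card_eq_pow_finrank (K := ZMod p), ZMod.card]
  refine ⟨Module.finrank (ZMod p) ↥(ZMod p)⟮a⟯, Module.finrank_pos, ?_⟩
  have h := FiniteField.pow_card (⟨a, mem_adjoin_simple_self _ a⟩ : ↥(ZMod p)⟮a⟯)
  rw [hc] at h
  exact congrArg Subtype.val h

variable (p : ℕ) [Fact p.Prime] (k F : Type*) [Field k] [IsAlgClosed k] [Algebra (ZMod p) k]
  [Algebra.IsAlgebraic (ZMod p) k] [Field F] [Algebra k F] [IsFunctionField k F]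

theorem exists_frob : ∃ Φ : Frob k F, ∃ e, Φ.q = p ^ e := by
  classical
  haveI : CharP k p := charP_of_injective_algebraMap (algebraMap (ZMod p) k).injective p
  obtain ⟨x, hx, hfd⟩ := IsFunctionField.exists_transcendental (K := k) (F := F)
  let b := Module.finBasis k⟮x⟯ F
  let gens : Option (Fin (Module.finrank k⟮x⟯ F)) → F := fun o => o.elim x fun i => b i
  have hgen : IntermediateField.adjoin k (Set.range gens) = ⊤ := by
    refine eq_top_iff.2 fun f _ => ?_
    rw [← b.sum_repr f]
    refine sum_mem fun i _ => ?_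
    have hle : k⟮x⟯ ≤ IntermediateField.adjoin k (Set.range gens) := by
      rw [adjoin_simple_le_iff]
      exact subset_adjoin k _ ⟨none, rfl⟩
    rw [Algebra.smul_def]
    exact mul_mem (hle (b.repr f i).2) (subset_adjoin k _ ⟨some i, rfl⟩)
  let A := MvPolynomial.aeval (R := k) gens
  set I := RingHom.ker A.toRingHom
  obtain ⟨G, hG⟩ : I.FG := IsNoetherian.noetherian I
  let coeffs : Finset k := G.biUnion fun g => g.support.image fun d => g.coeff d
  obtain ⟨e, he, he'⟩ := (isQ_prime p k).common_period fun c : coeffs => (c : k)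
  let E := MvPolynomial.mapEquiv (Option (Fin (Module.finrank k⟮x⟯ F)))
    (iterateFrobeniusEquiv k p e)
  have hE : ∀ g ∈ G, E g = g := fun g hg => by
    ext d
    rw [MvPolynomial.mapEquiv_apply, MvPolynomial.coeff_map]
    show iterateFrobeniusEquiv k p e _ = _
    rw [iterateFrobeniusEquiv_def]
    by_cases hd : d ∈ g.support
    · exact he' ⟨_, Finset.mem_biUnion.2 ⟨g, hg, Finset.mem_image_of_mem _ hd⟩⟩
    · rw [MvPolynomial.notMem_support_iff.1 hd, zero_pow (pow_ne_zero e (NeZero.ne p))]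
  have hI : I = I.map (E : _ →+* _) := by
    rw [← hG, Ideal.map_span]
    congr 1
    ext g
    exact ⟨fun h => ⟨g, h, hE g h⟩, fun ⟨g', h, e'⟩ => e' ▸ (hE g' h).symm ▸ h⟩
  let Q := Ideal.quotientEquiv I I E hI
  letI : Algebra (MvPolynomial (Option (Fin (Module.finrank k⟮x⟯ F))) k ⧸ I) F :=
    (RingHom.kerLift A.toRingHom).toAlgebra
  haveI : FaithfulSMul (MvPolynomial (Option (Fin (Module.finrank k⟮x⟯ F))) k ⧸ I) F :=
    (faithfulSMul_iff_algebraMap_injective _ _).2 (RingHom.kerLift_injective A.toRingHom)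
  haveI : IsFractionRing (MvPolynomial (Option (Fin (Module.finrank k⟮x⟯ F))) k ⧸ I) F :=
    IsFractionRing.of_field _ _ fun z => by
      have hz : z ∈ IntermediateField.adjoin k (Set.range gens) := hgen ▸ mem_top
      obtain ⟨r, hr, s, hs, rfl⟩ := mem_adjoin_iff_div.1 hz
      rw [Algebra.adjoin_range_eq_range_aeval] at hr hs
      obtain ⟨P, rfl⟩ := hr
      obtain ⟨P', rfl⟩ := hs
      exact ⟨Ideal.Quotient.mk I P, Ideal.Quotient.mk I P', rfl⟩
  let φ : F ≃+* F := IsFractionRing.ringEquivOfRingEquiv Q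
  have hφ : ∀ P, φ (A P) = A (E P) := fun P => by
    show φ (algebraMap _ F (Ideal.Quotient.mk I P)) = _
    rw [IsFractionRing.ringEquivOfRingEquiv_algebraMap]
    rfl
  refine ⟨⟨φ, p ^ e, (isQ_prime p k).pow he, fun a => ?_, x, hx, ?_⟩, e, rfl⟩
  · have h := hφ (MvPolynomial.C a)
    rw [MvPolynomial.mapEquiv_apply, MvPolynomial.map_C] at h
    simpa [A, iterateFrobenius_def] using h
  · have h := hφ (MvPolynomial.X none)
    rw [MvPolynomial.mapEquiv_apply, MvPolynomial.map_X] at h
    simpa [A, gens] using h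

/-- A Frobenius fixing a place. -/
theorem exists_frob_fixed :
    ∃ Φ : Frob k F, (∃ e, Φ.q = p ^ e) ∧ ∃ O : Place k F, Φ.place O = O := by
  obtain ⟨Φ, e, he⟩ := exists_frob p k F
  obtain ⟨t, ht, -⟩ := IsFunctionField.exists_transcendental (K := k) (F := F)
  obtain ⟨O⟩ : Nonempty (Place k F) := by
    obtain ⟨v, -⟩ := exists_ord_pos (K := k) ht
    exact ⟨v⟩
  obtain ⟨r, hr, h⟩ := Φ.place_periodic O
  exact ⟨Φ.pow r hr, ⟨e * r, by show Φ.q ^ r = _; rw [he, ← pow_mul]⟩, O,
    by rw [Frob.place_pow, h]⟩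

end FLTAgent.Jac27.Finite.Geom
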