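import Fermat.Agent.Jac27.Finite.Geom.Semilinear
import Fermat.Agent.Specialization.Riemann

/-!
# Frobenius automorphisms of a function field and their action on places

A Frobenius is an automorphism of the field acting on the constants by `a ↦ a ^ q` and fixing a
non constant function.
-/

set_option autoImplicit false
set_option linter.unusedSectionVars false
set_option linter.style.haveILetI false

noncomputable section

namespace FLTAgent.Jac27.Finite.Geom

open AlgebraicCurve FLTAgent.Curves FLTAgent.Specialization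

variable (k F : Type*) [Field k] [Field F] [Algebra k F]

/-- A Frobenius of a function field. -/
structure Frob where
  φ : F ≃+* F
  q : ℕ
  hQ : IsQ k q
  commutes : ∀ a : k, φ (algebraMap k F a) = algebraMap k F (a ^ q)
  x : F
  trans : Transcendental k x
  fix : φ x = x

variable {k F} [IsAlgClosed k] [IsFunctionField k F] (Φ : Frob k F)

namespace Frob

theorem q_pos : 0 < Φ.q := Φ.hQ.pos

theorem symm_commutes (a : k) : ∃ b : k, Φ.φ.symm (algebraMap k F a) = algebraMap k F b := by
  obtain ⟨b, hb⟩ := IsAlgClosed.exists_pow_nat_eq a Φ.q_pos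
  exact ⟨b, Φ.φ.injective (by rw [RingEquiv.apply_symm_apply, Φ.commutes, hb])⟩

theorem map_smul (a : k) (f : F) : Φ.φ (a • f) = a ^ Φ.q • Φ.φ f := by
  rw [Algebra.smul_def, map_mul, Φ.commutes, ← Algebra.smul_def]

/-- Iterates of a Frobenius. -/
def iter : ℕ → F ≃+* F
  | 0 => RingEquiv.refl F
  | r + 1 => (iter r).trans Φ.φ

theorem iter_apply (r : ℕ) (f : F) : Φ.iter r f = Φ.φ^[r] f := by
  induction r with
  | zero => rfl
  | succ r ih =>
    rw [Function.iterate_succ_apply', ← ih]
    rfl

/-- The power of a Frobenius. -/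
def pow (r : ℕ) (hr : 0 < r) : Frob k F where
  φ := Φ.iter r
  q := Φ.q ^ r
  hQ := Φ.hQ.pow hr
  commutes a := by
    rw [Φ.iter_apply]
    clear hr
    induction r with
    | zero => simp
    | succ r ih => rw [Function.iterate_succ_apply', ih, Φ.commutes, pow_succ, pow_mul]
  x := Φ.x
  trans := Φ.trans
  fix := by
    rw [Φ.iter_apply]
    exact Function.iterate_fixed Φ.fix r

theorem pow_φ (r : ℕ) (hr : 0 < r) (f : F) : (Φ.pow r hr).φ f = Φ.φ^[r] f := Φ.iter_apply r f

/-! ### Places -/

/-- Transport of the ring of a place along an automorphism. -/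
def ringEquivComap (e : F ≃+* F) (A : ValuationSubring F) :
    A ≃+* A.comap e.symm.toRingHom where
  toFun a := ⟨e a, show e.symm (e a) ∈ A by rw [RingEquiv.symm_apply_apply]; exact a.2⟩
  invFun b := ⟨e.symm b, b.2⟩
  left_inv a := Subtype.ext (e.symm_apply_apply _)
  right_inv b := Subtype.ext (e.apply_symm_apply _)
  map_mul' a b := Subtype.ext (map_mul e _ _)
  map_add' a b := Subtype.ext (map_add e _ _)

theorem comap_ne_top (e : F →+* F) (he : Function.Surjective e) {A : ValuationSubring F}
    (hA : A ≠ ⊤) : A.comap e ≠ ⊤ := fun h => hA (by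
  ext f
  refine ⟨fun _ => ValuationSubring.mem_top f, fun _ => ?_⟩
  obtain ⟨g, rfl⟩ := he f
  have hg : g ∈ A.comap e := by rw [h]; exact ValuationSubring.mem_top g
  exact hg)

/-- The image of a place. -/
def placeMap (v : Place k F) : Place k F where
  toValuationSubring := v.toValuationSubring.comap Φ.φ.symm.toRingHom
  algebraMap_mem' a := by
    obtain ⟨b, hb⟩ := Φ.symm_commutes a
    show Φ.φ.symm (algebraMap k F a) ∈ v.toValuationSubring
    rw [hb]
    exact v.algebraMap_mem' b
  ne_top' := comap_ne_top _ Φ.φ.symm.surjective v.ne_top'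
  isPrincipalIdealRing' := IsPrincipalIdealRing.of_surjective
    (ringEquivComap Φ.φ v.toValuationSubring : _ ≃+* _)
    (ringEquivComap Φ.φ v.toValuationSubring).surjective

/-- The preimage of a place. -/
def placeInv (v : Place k F) : Place k F where
  toValuationSubring := v.toValuationSubring.comap Φ.φ.toRingHom
  algebraMap_mem' a := by
    show Φ.φ (algebraMap k F a) ∈ v.toValuationSubring
    rw [Φ.commutes]
    exact v.algebraMap_mem' _
  ne_top' := comap_ne_top _ Φ.φ.surjective v.ne_top'
  isPrincipalIdealRing' := IsPrincipalIdealRing.of_surjective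
    (ringEquivComap Φ.φ.symm v.toValuationSubring : _ ≃+* _)
    (ringEquivComap Φ.φ.symm v.toValuationSubring).surjective

/-- The permutation of the places. -/
def place : Place k F ≃ Place k F where
  toFun := Φ.placeMap
  invFun := Φ.placeInv
  left_inv v := Place.ext (by
    ext f
    show Φ.φ.symm (Φ.φ f) ∈ v.toValuationSubring ↔ _
    rw [RingEquiv.symm_apply_apply])
  right_inv v := Place.ext (by
    ext f
    show Φ.φ (Φ.φ.symm f) ∈ v.toValuationSubring ↔ _
    rw [RingEquiv.apply_symm_apply])

theorem mem_place {v : Place k F} {f : F} :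
    Φ.φ f ∈ (Φ.place v).toValuationSubring ↔ f ∈ v.toValuationSubring := by
  show Φ.φ.symm (Φ.φ f) ∈ v.toValuationSubring ↔ _
  rw [RingEquiv.symm_apply_apply]

theorem ord_place (v : Place k F) (f : F) : (Φ.place v).ord (Φ.φ f) = v.ord f := by
  rcases eq_or_ne f 0 with rfl | hf
  · simp
  obtain ⟨π, hπ⟩ := IsDiscreteValuationRing.exists_irreducible v.toValuationSubring
  obtain ⟨u, hu⟩ := v.exists_unit_mul_zpow hf hπ
  set n := v.ord f
  set e := ringEquivComap Φ.φ v.toValuationSubring
  have hπ' : Irreducible (e π) := (MulEquiv.irreducible_iff e).mpr hπ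
  have hu' : IsUnit (e (u : v.toValuationSubring)) := u.isUnit.map e
  have key : Φ.φ f = ((hu'.unit : v.toValuationSubring.comap Φ.φ.symm.toRingHom) : F) *
      (((e π : (Φ.place v).toValuationSubring) : F) ^ n) := by
    rw [IsUnit.unit_spec]
    show Φ.φ f = Φ.φ ((u : v.toValuationSubring) : F) * Φ.φ (π : F) ^ n
    rw [hu, map_mul, map_zpow₀]
  rw [key]
  exact (Φ.place v).ord_unit_smul_zpow hu'.unit hπ' n

theorem place_pow (r : ℕ) (hr : 0 < r) (v : Place k F) :
    (Φ.pow r hr).place v = Φ.place^[r] v := by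
  refine Place.ext ?_
  ext f
  obtain ⟨g, rfl⟩ := (Φ.pow r hr).φ.surjective f
  rw [mem_place, pow_φ]
  clear hr
  induction r with
  | zero => rfl
  | succ r ih => rw [Function.iterate_succ_apply', Function.iterate_succ_apply', mem_place, ih]

/-- The value of a function at a place where it has no pole. -/
def value (v : Place k F) (f : F) (h : 0 ≤ v.ord f) : k :=
  (exists_residue v (ordGE_of_le h)).choose

theorem value_spec (v : Place k F) (f : F) (h : 0 ≤ v.ord f) :
    OrdGE v 1 (f - algebraMap k F (value v f h)) :=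
  (exists_residue v (ordGE_of_le h)).choose_spec

theorem value_unique {v : Place k F} {f : F} {a b : k} (ha : OrdGE v 1 (f - algebraMap k F a))
    (hb : OrdGE v 1 (f - algebraMap k F b)) : a = b := by
  by_contra hne
  have h := ha.sub hb
  rw [sub_sub_sub_cancel_left, ← map_sub] at h
  have h0 : algebraMap k F (b - a) ≠ 0 := by simpa [sub_eq_zero] using Ne.symm hne
  have := h.le_ord h0
  rw [ord_algebraMap] at this
  omega

theorem ord_x_place (v : Place k F) : (Φ.place v).ord Φ.x = v.ord Φ.x := by
  conv_lhs => rw [← Φ.fix]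
  exact Φ.ord_place v Φ.x

theorem value_place {v : Place k F} {a : k} (ha : OrdGE v 1 (Φ.x - algebraMap k F a)) :
    OrdGE (Φ.place v) 1 (Φ.x - algebraMap k F (a ^ Φ.q)) := by
  rcases ha with h | h
  · left
    rw [← Φ.fix, ← Φ.commutes, ← map_sub, h, map_zero]
  · right
    rw [← Φ.fix, ← Φ.commutes, ← map_sub, Φ.ord_place]
    exact h

theorem fixed_places_finite : {v : Place k F | Φ.place v = v}.Finite := by
  refine ((finite_poles (K := k) Φ.x).union (Φ.hQ.fixed_finite.biUnion fun a _ =>
    finite_zeros (K := k) (Φ.x - algebraMap k F a))).subset fun v hv => ?_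
  simp only [Set.mem_union, Set.mem_iUnion, Set.mem_ofPred_eq]
  rcases lt_or_ge (v.ord Φ.x) 0 with h | h
  · exact Or.inl h
  · refine Or.inr ⟨value v Φ.x h, ?_, ?_⟩
    · have h1 := Φ.value_place (value_spec v Φ.x h)
      rw [show Φ.place v = v from hv] at h1
      exact value_unique h1 (value_spec v Φ.x h)
    · refine (value_spec v Φ.x h).le_ord fun h0 => ?_
      exact (transcendental_iff_injective.1 Φ.trans).ne (Polynomial.X_ne_C (value v Φ.x h))
        (by simpa [sub_eq_zero] using h0)

theorem value_iterate {v : Place k F} {a : k} (ha : OrdGE v 1 (Φ.x - algebraMap k F a))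
    (n : ℕ) : OrdGE (Φ.place^[n] v) 1 (Φ.x - algebraMap k F (a ^ (Φ.q ^ n))) := by
  induction n with
  | zero => simpa using ha
  | succ n ih =>
    rw [Function.iterate_succ_apply', pow_succ, pow_mul]
    exact Φ.value_place ih

theorem periodic_of_mapsTo {α : Type*} {f : α → α} (hf : Function.Injective f) {s : Set α}
    (hs : s.Finite) {a : α} (h : ∀ n, f^[n] a ∈ s) : ∃ r, 0 < r ∧ f^[r] a = a := by
  obtain ⟨i, -, j, -, hij, e⟩ :=
    Set.infinite_univ.exists_ne_map_eq_of_mapsTo (fun n _ => h n) hs
  wlog hlt : i < j generalizing i j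
  · exact this j i hij.symm e.symm (lt_of_le_of_ne (not_lt.1 hlt) hij.symm)
  refine ⟨j - i, Nat.sub_pos_of_lt hlt, (hf.iterate i) ?_⟩
  rw [← Function.iterate_add_apply, Nat.add_sub_cancel' hlt.le]
  exact e.symm

theorem place_periodic (v : Place k F) : ∃ r, 0 < r ∧ Φ.place^[r] v = v := by
  rcases lt_or_ge (v.ord Φ.x) 0 with h | h
  · refine periodic_of_mapsTo Φ.place.injective (finite_poles (K := k) Φ.x) fun n => ?_
    show (Φ.place^[n] v).ord Φ.x < 0
    induction n with
    | zero => exact h
    | succ n ih => rwa [Function.iterate_succ_apply', Φ.ord_x_place]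
  · set a := value v Φ.x h
    obtain ⟨m, hm, hm'⟩ := Φ.hQ.periodic a
    let s : Set (Place k F) := {w | OrdGE w 1 (Φ.x - algebraMap k F a)}
    have hs : s.Finite := by
      refine (finite_zeros (K := k) (Φ.x - algebraMap k F a)).subset fun w hw => ?_
      refine (show OrdGE w 1 _ from hw).le_ord fun h0 => ?_
      exact (transcendental_iff_injective.1 Φ.trans).ne (Polynomial.X_ne_C a)
        (by simpa [sub_eq_zero] using h0)
    have horb : ∀ n, (Φ.place^[m])^[n] v ∈ s := fun n => by
      show OrdGE _ 1 _
      rw [← Function.iterate_mul]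
      have := Φ.value_iterate (value_spec v Φ.x h) (m * n)
      rwa [pow_periodic_mul hm' n] at this
    obtain ⟨r, hr, hr'⟩ := periodic_of_mapsTo (Φ.place.injective.iterate m) hs horb
    exact ⟨m * r, Nat.mul_pos hm hr, by rw [Function.iterate_mul]; exact hr'⟩

/-! ### Divisors and classes -/

/-- The action on divisors. -/
def divisor : Divisor k F ≃+ Divisor k F := Finsupp.domCongr Φ.place

theorem divisor_apply (D : Divisor k F) (v : Place k F) : Φ.divisor D (Φ.place v) = D v := by
  simp [divisor]

theorem divisor_single (v : Place k F) (n : ℤ) :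
    Φ.divisor (Finsupp.single v n) = Finsupp.single (Φ.place v) n := by
  simp [divisor]

theorem degree_divisor (D : Divisor k F) :
    Divisor.degree (Φ.divisor D) = Divisor.degree D := by
  induction D using Finsupp.induction with
  | zero => simp
  | single_add v n D _ _ ih =>
    rw [map_add, map_add, map_add, ih, Φ.divisor_single, degree_single', degree_single']

theorem divisor_nonneg {D : Divisor k F} : 0 ≤ Φ.divisor D ↔ 0 ≤ D := by
  constructor
  · exact fun h v => by simpa [Φ.divisor_apply] using h (Φ.place v)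
  · intro h v
    obtain ⟨w, rfl⟩ := Φ.place.surjective v
    simpa [Φ.divisor_apply] using h w

theorem divisor_divOf (f : F) : Φ.divisor (divOf k f) = divOf k (Φ.φ f) := by
  ext v
  obtain ⟨w, rfl⟩ := Φ.place.surjective v
  rw [Φ.divisor_apply, divOf_apply, divOf_apply, Φ.ord_place]

theorem isPrincipal_divisor {D : Divisor k F} (h : Divisor.IsPrincipal D) :
    Divisor.IsPrincipal (Φ.divisor D) := by
  obtain ⟨f, hf, rfl⟩ := isPrincipal_iff.1 h
  exact isPrincipal_iff.2 ⟨Φ.φ f, by simpa using hf, Φ.divisor_divOf f⟩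

theorem mem_rrSpace_map {D : Divisor k F} {f : F} (hf : f ∈ riemannRochSpace D) :
    Φ.φ f ∈ riemannRochSpace (Φ.divisor D) := by
  refine mem_rrSpace.2 fun v => ?_
  obtain ⟨w, rfl⟩ := Φ.place.surjective v
  rw [Φ.divisor_apply]
  rcases mem_rrSpace.1 hf w with h | h
  · exact Or.inl (by rw [h, map_zero])
  · exact Or.inr (by rwa [Φ.ord_place])

theorem divisor_pow (r : ℕ) (hr : 0 < r) (D : Divisor k F) :
    (Φ.pow r hr).divisor D = Φ.divisor^[r] D := by
  induction D using Finsupp.induction with
  | zero => simp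
  | single_add v n D _ _ ih =>
    rw [map_add, ih, Frob.divisor_single, place_pow]
    clear ih hr
    induction r with
    | zero => rfl
    | succ r ih =>
      rw [Function.iterate_succ_apply', Function.iterate_succ_apply', Function.iterate_succ_apply',
        ← ih, map_add, Φ.divisor_single]

theorem divisor_periodic (D : Divisor k F) : ∃ r, 0 < r ∧ Φ.divisor^[r] D = D := by
  induction D using Finsupp.induction with
  | zero => exact ⟨1, Nat.one_pos, by simp⟩
  | single_add v n D _ _ ih =>
    obtain ⟨r, hr, hrD⟩ := ih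
    obtain ⟨s, hs, hsv⟩ := Φ.place_periodic v
    refine ⟨r * s, Nat.mul_pos hr hs, ?_⟩
    have h1 : Φ.divisor^[r * s] D = D := by
      rw [Function.iterate_mul]; exact Function.iterate_fixed hrD s
    have h2 : Φ.place^[r * s] v = v := by
      rw [mul_comm, Function.iterate_mul]; exact Function.iterate_fixed hsv r
    rw [← Φ.divisor_pow _ (Nat.mul_pos hr hs)] at h1 ⊢
    rw [map_add, h1, Frob.divisor_single, place_pow, h2]

/-- The action on divisors of degree zero. -/
def degZeroMap : Divisor.degZero (K := k) (F := F) →+ Divisor.degZero (K := k) (F := F) :=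
  ((Φ.divisor : Divisor k F →+ Divisor k F).comp (AddSubgroup.subtype _)).codRestrict _ fun D =>
    Divisor.mem_degZero.2 (by
      show Divisor.degree (Φ.divisor (D : Divisor k F)) = 0
      rw [Φ.degree_divisor]; exact D.2)

/-- The action on classes of degree zero. -/
def sigma : AddMonoid.End (Pic0 k F) :=
  QuotientAddGroup.map _ _ Φ.degZeroMap fun _ hD => Φ.isPrincipal_divisor hD

theorem sigma_mk (D : Divisor.degZero (K := k) (F := F)) :
    Φ.sigma (Pic0.mk D) = Pic0.mk (Φ.degZeroMap D) := rfl

theorem degZeroMap_coe (D : Divisor.degZero (K := k) (F := F)) :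
    (Φ.degZeroMap D : Divisor k F) = Φ.divisor D := rfl

theorem sigma_pow_mk (r : ℕ) (D : Divisor.degZero (K := k) (F := F)) :
    (Φ.sigma ^ r) (Pic0.mk D) = Pic0.mk (Φ.degZeroMap^[r] D) := by
  induction r with
  | zero => rfl
  | succ r ih =>
    rw [pow_succ', Function.iterate_succ_apply', ← sigma_mk, ← ih]
    rfl

theorem degZeroMap_iterate_coe (r : ℕ) (D : Divisor.degZero (K := k) (F := F)) :
    ((Φ.degZeroMap^[r] D : _) : Divisor k F) = Φ.divisor^[r] D := by
  induction r with
  | zero => rfl
  | succ r ih => rw [Function.iterate_succ_apply', degZeroMap_coe, ih, Function.iterate_succ_apply']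

theorem sigma_pow (r : ℕ) (hr : 0 < r) : (Φ.pow r hr).sigma = Φ.sigma ^ r := by
  refine AddMonoidHom.ext fun a => ?_
  obtain ⟨D, rfl⟩ := Pic0.mk_surjective a
  show (Φ.pow r hr).sigma _ = _
  refine ((Φ.pow r hr).sigma_mk D).trans ?_
  refine Eq.trans ?_ (Φ.sigma_pow_mk r D).symm
  exact congrArg Pic0.mk (Subtype.ext (by
    rw [degZeroMap_coe, degZeroMap_iterate_coe, divisor_pow]))

theorem sigma_periodic (a : Pic0 k F) : ∃ r, 0 < r ∧ (Φ.sigma ^ r) a = a := by
  obtain ⟨D, rfl⟩ := Pic0.mk_surjective a
  obtain ⟨r, hr, h⟩ := Φ.divisor_periodic D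
  exact ⟨r, hr, by
    rw [sigma_pow_mk]; exact congrArg Pic0.mk (Subtype.ext (by rw [degZeroMap_iterate_coe, h]))⟩

end Frob

end FLTAgent.Jac27.Finite.Geom
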