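import Mathlib

/-!
# Fixed vectors of semilinear bijections over an algebraic closure of a finite field

An injective additive map of a finite dimensional space which is semilinear for `a ↦ a ^ q` fixes
`q` to the power of the dimension many vectors.
-/

set_option autoImplicit false

noncomputable section

namespace FLTAgent.Jac27.Finite.Geom

open Polynomial

/-- The power `q` of a Frobenius of an algebraic closure of a finite field. -/
structure IsQ (k : Type*) [Field k] (q : ℕ) : Prop where
  one_lt : 1 < q
  cast_zero : (q : k) = 0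
  add_pow : ∀ a b : k, (a + b) ^ q = a ^ q + b ^ q
  periodic : ∀ a : k, ∃ m, 0 < m ∧ a ^ (q ^ m) = a

variable {k : Type*} [Field k] {q : ℕ}

theorem IsQ.pos (h : IsQ k q) : 0 < q := lt_trans Nat.zero_lt_one h.one_lt

theorem pow_periodic_mul {a : k} {m : ℕ} (h : a ^ (q ^ m) = a) (t : ℕ) :
    a ^ (q ^ (m * t)) = a := by
  induction t with
  | zero => simp
  | succ t ih => rw [mul_add, mul_one, pow_add, pow_mul, ih, h]

theorem IsQ.pow (h : IsQ k q) {r : ℕ} (hr : 0 < r) : IsQ k (q ^ r) where
  one_lt := Nat.one_lt_pow hr.ne' h.one_lt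
  cast_zero := by rw [Nat.cast_pow, h.cast_zero, zero_pow hr.ne']
  add_pow := by
    clear hr
    induction r with
    | zero => simp
    | succ r ih => intro a b; rw [pow_succ, pow_mul, ih, h.add_pow, ← pow_mul, ← pow_mul]
  periodic a := by
    obtain ⟨m, hm, ha⟩ := h.periodic a
    exact ⟨m, hm, by rw [← pow_mul, mul_comm, pow_periodic_mul ha r]⟩

/-- The power map as an endomorphism. -/
def IsQ.frob (h : IsQ k q) : k →+* k where
  toFun a := a ^ q
  map_one' := one_pow q
  map_mul' a b := mul_pow a b q
  map_zero' := zero_pow h.pos.ne'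
  map_add' := h.add_pow

theorem IsQ.frob_apply (h : IsQ k q) (a : k) : h.frob a = a ^ q := rfl

theorem IsQ.fixed_finite (h : IsQ k q) : {a : k | a ^ q = a}.Finite := by
  classical
  refine ((X ^ q - X : k[X]).roots.toFinset.finite_toSet).subset fun a ha => ?_
  simp only [Finset.mem_coe, Multiset.mem_toFinset,
    mem_roots (FiniteField.X_pow_card_sub_X_ne_zero k h.one_lt)]
  simp [show a ^ q = a from ha]

theorem IsQ.card_fixed [IsAlgClosed k] (h : IsQ k q) : Nat.card {a : k // a ^ q = a} = q := by
  classical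
  set P : k[X] := X ^ q - X
  have hd : P.natDegree = q := FiniteField.X_pow_card_sub_X_natDegree_eq k h.one_lt
  have hsep : P.Separable := by
    rw [separable_def]
    refine ⟨0, -1, ?_⟩
    simp [P, derivative_X_pow, h.cast_zero]
  have hc := Polynomial.card_rootSet_eq_natDegree (K := k) hsep (IsAlgClosed.splits _)
  rw [hd] at hc
  have he : {a : k | a ^ q = a} = P.rootSet k := Set.ext fun a => by
    rw [mem_rootSet]
    simp [P, sub_eq_zero, FiniteField.X_pow_card_sub_X_ne_zero k h.one_lt]
  show Nat.card ↥{a : k | a ^ q = a} = q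
  rw [he, Nat.card_eq_fintype_card]
  convert hc

theorem IsQ.common_period (h : IsQ k q) {ι : Type*} [Fintype ι] (a : ι → k) :
    ∃ m, 0 < m ∧ ∀ i, (a i) ^ (q ^ m) = a i := by
  classical
  choose n hn hn' using fun i => h.periodic (a i)
  refine ⟨∏ i, n i, Finset.prod_pos fun i _ => hn i, fun i => ?_⟩
  obtain ⟨t, ht⟩ : n i ∣ ∏ i, n i := Finset.dvd_prod_of_mem _ (Finset.mem_univ i)
  rw [ht, pow_periodic_mul (hn' i)]

variable {V : Type*} [AddCommGroup V] [Module k V] [FiniteDimensional k V]

theorem semilinear_periodic (h : IsQ k q) (ψ : V →+ V)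
    (hs : ∀ (a : k) (v : V), ψ (a • v) = a ^ q • ψ v) (hinj : Function.Injective ψ) (v : V) :
    ∃ r, 0 < r ∧ ψ^[r] v = v := by
  classical
  let b := Module.finBasis k V
  set d := Module.finrank k V
  obtain ⟨m, hm, hm'⟩ := h.common_period
    (Sum.elim (fun p : Fin d × Fin d => b.repr (ψ (b p.1)) p.2) fun i => b.repr v i)
  let H := h.pow hm
  let S : Subring k :=
    { carrier := {c | c ^ (q ^ m) = c}
      mul_mem' := fun {x y} hx hy => show (x * y) ^ _ = _ by rw [mul_pow, hx, hy]
      one_mem' := one_pow _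
      add_mem' := fun {x y} hx hy => show (x + y) ^ _ = _ by rw [H.add_pow, hx, hy]
      zero_mem' := zero_pow H.pos.ne'
      neg_mem' := fun {x} hx => show (-x) ^ _ = _ by
        have : H.frob (-x) = -H.frob x := map_neg _ _
        rw [H.frob_apply, H.frob_apply] at this
        rw [this, hx] }
  have hfin : (Set.pi Set.univ fun _ : Fin d => (S : Set k)).Finite :=
    Set.Finite.pi fun _ => H.fixed_finite
  set T : Set V := {w | ∀ i, b.repr w i ∈ S}
  have hT : T.Finite := by
    refine (hfin.preimage (f := fun w => ⇑(b.repr w))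
      fun w _ w' _ e => b.repr.injective (DFunLike.coe_injective e)).subset fun w hw => ?_
    exact fun i _ => hw i
  have hψT : ∀ w ∈ T, ψ w ∈ T := fun w hw i => by
    conv => arg 2; rw [← b.sum_repr w]
    rw [map_sum, map_sum, Finsupp.finset_sum_apply]
    refine S.sum_mem fun j _ => ?_
    rw [hs, map_smul, Finsupp.smul_apply, smul_eq_mul]
    exact S.mul_mem (S.pow_mem (hw j) q) (hm' (Sum.inl (j, i)))
  have horb : ∀ n : ℕ, ψ^[n] v ∈ T := fun n => by
    induction n with
    | zero => exact fun i => hm' (Sum.inr i)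
    | succ n ih => rw [Function.iterate_succ_apply']; exact hψT _ ih
  obtain ⟨i, -, j, -, hij, e⟩ := Set.infinite_univ.exists_ne_map_eq_of_mapsTo
    (fun n _ => horb n) hT
  wlog hlt : i < j generalizing i j
  · exact this j i hij.symm e.symm (lt_of_le_of_ne (not_lt.1 hlt) hij.symm)
  refine ⟨j - i, Nat.sub_pos_of_lt hlt, (hinj.iterate i) ?_⟩
  rw [← Function.iterate_add_apply, Nat.add_sub_cancel' hlt.le]
  exact e.symm

theorem span_fixed [IsAlgClosed k] (h : IsQ k q) (ψ : V →+ V)
    (hs : ∀ (a : k) (v : V), ψ (a • v) = a ^ q • ψ v) (hinj : Function.Injective ψ) :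
    Submodule.span k {v : V | ψ v = v} = ⊤ := by
  classical
  rw [← Subspace.dualAnnihilator_inj, Submodule.dualAnnihilator_top, Submodule.eq_bot_iff]
  intro l hl
  refine LinearMap.ext fun v => ?_
  rw [Submodule.mem_dualAnnihilator] at hl
  obtain ⟨r, hr, hv⟩ := semilinear_periodic h ψ hs hinj v
  have ht : ∀ c : k, c ^ (q ^ r) = c →
      l (∑ i ∈ Finset.range r, c ^ (q ^ i) • ψ^[i] v) = 0 := fun c hc => by
    refine hl _ (Submodule.subset_span ?_)
    show ψ _ = _
    set f : ℕ → V := fun i => c ^ (q ^ i) • ψ^[i] v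
    have hstep : ∀ i, ψ (f i) = f (i + 1) := fun i => by
      simp only [f, hs, ← pow_mul, ← pow_succ, ← Function.iterate_succ_apply']
    have hfr : f r = f 0 := by simp [f, hc, hv]
    rw [map_sum, Finset.sum_congr rfl fun i _ => hstep i]
    have h1 := Finset.sum_range_succ' f r
    rw [Finset.sum_range_succ, hfr] at h1
    exact (add_right_cancel h1).symm
  set P : k[X] := ∑ i ∈ Finset.range r, C (l (ψ^[i] v)) * X ^ (q ^ i)
  have hP : P = 0 := by
    haveI := (h.pow hr).fixed_finite.fintype
    refine eq_zero_of_natDegree_lt_card_of_eval_eq_zero P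
      (f := (Subtype.val : {c : k | c ^ (q ^ r) = c} → k)) Subtype.val_injective (fun c => ?_) ?_
    · have := ht c c.2
      simp only [map_sum, map_smul, smul_eq_mul] at this
      simp only [P, eval_finsetSum, eval_mul, eval_C, eval_pow, eval_X]
      rw [← this]
      exact Finset.sum_congr rfl fun i _ => mul_comm _ _
    · rw [← Nat.card_eq_fintype_card]
      refine lt_of_le_of_lt (natDegree_sum_le_of_forall_le _ _ fun i hi => ?_)
        (b := q ^ (r - 1)) ?_
      · exact (natDegree_C_mul_X_pow_le _ _).trans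
          (Nat.pow_le_pow_right h.pos (by have := Finset.mem_range.1 hi; omega))
      · calc q ^ (r - 1) < q ^ r := Nat.pow_lt_pow_right h.one_lt (by omega)
          _ = _ := ((h.pow hr).card_fixed).symm
  have := congrArg (fun p : k[X] => p.coeff 1) hP
  simp only [P, finsetSum_coeff, coeff_C_mul_X_pow, coeff_zero] at this
  rw [Finset.sum_eq_single 0 (fun i _ hi => if_neg fun e => hi ?_) (by simp [hr])] at this
  · simpa using this
  · exact Nat.pow_right_injective h.one_lt (a₂ := 0) (by simpa using e.symm)

/-- The number of fixed vectors of a semilinear bijection. -/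
theorem card_fixed_vectors [IsAlgClosed k] (h : IsQ k q) (ψ : V →+ V)
    (hs : ∀ (a : k) (v : V), ψ (a • v) = a ^ q • ψ v) (hinj : Function.Injective ψ) :
    Nat.card {v : V // ψ v = v} = q ^ Module.finrank k V := by
  classical
  obtain ⟨B, hB, hBspan, hBli⟩ := exists_linearIndependent k {v : V | ψ v = v}
  rw [span_fixed h ψ hs hinj] at hBspan
  haveI : Fintype B := FiniteDimensional.fintypeBasisIndex
    (Module.Basis.mk hBli (by rw [Subtype.range_coe]; exact hBspan.ge))
  let b := Module.Basis.mk hBli (by rw [Subtype.range_coe]; exact hBspan.ge)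
  have hb : ∀ i, ψ (b i) = b i := fun i => by
    rw [Module.Basis.mk_apply]; exact hB i.2
  have key : ∀ v : V, ψ v = v ↔ ∀ i, (b.repr v i) ^ q = b.repr v i := fun v => by
    have e : ψ v = ∑ i, (b.repr v i) ^ q • b i := by
      conv => lhs; rw [← b.sum_repr v]
      rw [map_sum]
      simp only [hs, hb]
    have h' : ∀ i, b.repr (∑ i, (b.repr v i) ^ q • b i) i = (b.repr v i) ^ q :=
      fun i => congrFun (b.repr_sum_self fun i => (b.repr v i) ^ q) i
    rw [e, ← b.repr.injective.eq_iff, DFunLike.ext_iff]
    exact forall_congr' fun i => by rw [h']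
  have e : {v : V // ψ v = v} ≃ (B → {a : k // a ^ q = a}) :=
    { toFun := fun v i => ⟨b.repr v.1 i, (key v.1).1 v.2 i⟩
      invFun := fun c => ⟨∑ i, (c i).1 • b i, (key _).2 fun i => by
        rw [b.repr_sum_self]; exact (c i).2⟩
      left_inv := fun v => Subtype.ext (b.sum_repr v.1)
      right_inv := fun c => funext fun i => Subtype.ext (congrFun (b.repr_sum_self fun i => (c i).1) i) }
  rw [Nat.card_congr e, Nat.card_fun, h.card_fixed, Nat.card_eq_fintype_card,
    ← Module.finrank_eq_card_basis b]

end FLTAgent.Jac27.Finite.Geom
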