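import Fermat.Agent.Jac27.Finite.Geom.Divisors
import Fermat.Agent.Jac27.Finite.Geom.Exists
import Fermat.Agent.Jac27.Finite.Interface

/-!
# Counting data of a curve over an algebraic closure of a finite field

The effective fixed divisors of large degree are equidistributed over the fixed classes; in degree
`2g - 2` the canonical class has one more line of sections.
-/

set_option autoImplicit false
set_option linter.unusedSectionVars false
set_option linter.style.haveILetI false

noncomputable section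

open scoped Classical

namespace FLTAgent.Jac27.Finite.Geom

open AlgebraicCurve FLTAgent.Curves FLTAgent.Specialization

variable {k F : Type*} [Field k] [Field F] [Algebra k F] [IsAlgClosed k] [IsFunctionField k F]
variable (Φ : Frob k F) (O : Place k F) (hO : Φ.place O = O)

theorem degree_sub_smul (D : Divisor k F) :
    D - Divisor.degree D • Finsupp.single O 1 ∈ Divisor.degZero (K := k) (F := F) :=
  Divisor.mem_degZero.2 (by simp [deg_eq_one])

/-- The class of a divisor, normalised at the base place. -/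
def cl : Divisor k F →+ Pic0 k F :=
  AddMonoidHom.mk' (fun D => Pic0.mk ⟨_, degree_sub_smul O D⟩) fun A B => by
    rw [← Pic0.mk_add]
    refine congrArg Pic0.mk (Subtype.ext ?_)
    show A + B - Divisor.degree (A + B) • _ = _ + _
    rw [map_add, add_zsmul]
    exact add_sub_add_comm _ _ _ _

theorem mk_eq_mk_iff {A B : Divisor.degZero (K := k) (F := F)} :
    Pic0.mk A = Pic0.mk B ↔ Divisor.IsPrincipal ((A : Divisor k F) - (B : Divisor k F)) :=
  QuotientAddGroup.eq_iff_sub_mem

theorem cl_eq (D : Divisor k F) : cl O D = Pic0.mk ⟨_, degree_sub_smul O D⟩ := rfl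

include hO in
theorem cl_divisor (D : Divisor k F) : cl O (Φ.divisor D) = Φ.sigma (cl O D) := by
  rw [cl_eq, cl_eq, Φ.sigma_mk]
  refine congrArg Pic0.mk (Subtype.ext ?_)
  rw [Φ.degZeroMap_coe]
  simp only [map_sub, map_zsmul, Φ.degree_divisor, Φ.divisor_single, hO]

include hO in
theorem cl_mem_fixed {D : Divisor k F} (hD : Φ.divisor D = D) :
    cl O D ∈ fixedBy Φ.sigma := by
  rw [mem_fixedBy, ← cl_divisor Φ O hO, hD]

/-- A divisor of degree `n` in a given class. -/
def rep (a : Pic0 k F) (n : ℕ) : Divisor k F :=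
  ((Pic0.mk_surjective a).choose : Divisor k F) + (n : ℤ) • Finsupp.single O 1

theorem degree_rep (a : Pic0 k F) (n : ℕ) : Divisor.degree (rep O a n) = n := by
  have := Divisor.mem_degZero.1 ((Pic0.mk_surjective a).choose).2
  simp [rep, this, deg_eq_one]

theorem cl_rep (a : Pic0 k F) (n : ℕ) : cl O (rep O a n) = a := by
  conv_rhs => rw [← (Pic0.mk_surjective a).choose_spec]
  rw [cl_eq]
  refine congrArg Pic0.mk (Subtype.ext ?_)
  show rep O a n - Divisor.degree (rep O a n) • Finsupp.single O 1 = _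
  rw [degree_rep]
  exact add_sub_cancel_right _ _

theorem isPrincipal_sub_iff {D E : Divisor k F} (h : Divisor.degree D = Divisor.degree E) :
    Divisor.IsPrincipal (D - E) ↔ cl O D = cl O E := by
  rw [cl_eq, cl_eq, mk_eq_mk_iff]
  simp only [h]
  rw [sub_sub_sub_cancel_right]

include hO in
theorem principal_rep {a : Pic0 k F} (ha : a ∈ fixedBy Φ.sigma) (n : ℕ) :
    Divisor.IsPrincipal (Φ.divisor (rep O a n) - rep O a n) := by
  rw [isPrincipal_sub_iff O (Φ.degree_divisor _), cl_divisor Φ O hO, cl_rep]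
  exact mem_fixedBy.1 ha

include hO in
theorem fib_eq (a : Pic0 k F) (n : ℕ) :
    fib Φ (rep O a n) = {D | D ∈ eff Φ n ∧ cl O D = a} := by
  ext D
  simp only [fib, Set.mem_ofPred_eq, mem_eff]
  constructor
  · rintro ⟨h0, hD, hp⟩
    have hdeg : Divisor.degree D = Divisor.degree (rep O a n) := by
      obtain ⟨f, -, e⟩ := isPrincipal_iff.1 hp
      have := congrArg Divisor.degree e
      rw [map_sub, degree_divOf, sub_eq_zero] at this
      exact this
    exact ⟨⟨h0, hD, by rw [hdeg, degree_rep]⟩,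
      by rw [(isPrincipal_sub_iff O hdeg).1 hp, cl_rep]⟩
  · rintro ⟨⟨h0, hD, hn⟩, hc⟩
    exact ⟨h0, hD, (isPrincipal_sub_iff O (by rw [hn, degree_rep])).2 (by rw [hc, cl_rep])⟩

include hO in
theorem card_class {a : Pic0 k F} (ha : a ∈ fixedBy Φ.sigma) (n : ℕ) :
    ((Φ.q : ℤ) - 1) * ((eff Φ n).filter fun D => cl O D = a).card =
      (Φ.q : ℤ) ^ (ell (rep O a n)).toNat - 1 := by
  rw [← card_fib Φ _ (principal_rep Φ O hO ha n), fib_eq Φ O hO, ← Nat.card_eq_finsetCard]
  congr 2
  exact Nat.card_congr (Equiv.subtypeEquivRight fun D => by simp)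

variable (g : ℕ) (hg : (g : ℤ) = rGenus k F)

theorem q_sub_one_ne : ((Φ.q : ℤ) - 1) ≠ 0 := by
  have := Φ.hQ.one_lt; omega

include hg in
theorem ell_rep_large {n : ℕ} (hn : 2 * g ≤ n + 1) (a : Pic0 k F) :
    (ell (rep O a n)).toNat = n + 1 - g := by
  obtain ⟨W, -, -, hlarge, -⟩ := exists_canonical_class (K := k) (F := F)
  rw [hlarge _ (by rw [degree_rep]; omega), degree_rep]
  omega

include hO hg in
theorem finite_fixed : Finite (fixedBy Φ.sigma) := by
  refine Finite.of_surjective (α := {D // D ∈ eff Φ (2 * g)})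
    (fun D => ⟨cl O D.1, cl_mem_fixed Φ O hO ((mem_eff Φ).1 D.2).2.1⟩) ?_
  rintro ⟨a, ha⟩
  have h := card_class Φ O hO ha (2 * g)
  rw [ell_rep_large O g hg (by omega)] at h
  obtain ⟨D, hD⟩ : ((eff Φ (2 * g)).filter fun D => cl O D = a).Nonempty := by
    rw [← Finset.card_pos, Nat.pos_iff_ne_zero]
    intro h0
    rw [h0, Nat.cast_zero, mul_zero, eq_comm, sub_eq_zero] at h
    have := Nat.one_lt_pow (show 2 * g + 1 - g ≠ 0 by omega) Φ.hQ.one_lt
    exact_mod_cast (Nat.cast_lt (α := ℤ)).2 this |>.ne' (by exact_mod_cast h)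
  rw [Finset.mem_filter] at hD
  exact ⟨⟨D, hD.1⟩, Subtype.ext hD.2⟩

/-- The fixed classes. -/
def fixedClasses (hf : Finite (fixedBy Φ.sigma)) : Finset (Pic0 k F) :=
  (Set.toFinite (fixedBy Φ.sigma : Set (Pic0 k F))).toFinset

theorem mem_fixedClasses (hf : Finite (fixedBy Φ.sigma)) {a : Pic0 k F} :
    a ∈ fixedClasses Φ hf ↔ a ∈ fixedBy Φ.sigma :=
  Set.Finite.mem_toFinset _

include hO in
theorem card_mul_sum {R : Type*} [CommRing R] (hf : Finite (fixedBy Φ.sigma)) (f : Pic0 k F → R)
    (n : ℕ) :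
    (((Φ.q : ℤ) - 1 : ℤ) : R) * ∑ D ∈ eff Φ n, f (cl O D) =
      ∑ a ∈ fixedClasses Φ hf, ((((Φ.q : ℤ) ^ (ell (rep O a n)).toNat - 1 : ℤ)) : R) * f a := by
  rw [← Finset.sum_fiberwise_of_maps_to (g := cl O) (t := fixedClasses Φ hf)
    (fun D hD => (mem_fixedClasses Φ hf).2 (cl_mem_fixed Φ O hO ((mem_eff Φ).1 hD).2.1)),
    Finset.mul_sum]
  refine Finset.sum_congr rfl fun a ha => ?_
  rw [← card_class Φ O hO ((mem_fixedClasses Φ hf).1 ha) n, Int.cast_mul, Int.cast_natCast,
    mul_assoc, Finset.sum_congr rfl fun D hD => congrArg f (Finset.mem_filter.1 hD).2,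
    Finset.sum_const, nsmul_eq_mul]

theorem card_fixedClasses (hf : Finite (fixedBy Φ.sigma)) :
    ((fixedClasses Φ hf).card : ℤ) = Nat.card (fixedBy Φ.sigma) := by
  rw [← Nat.card_eq_finsetCard]
  congr 1
  exact Nat.card_congr (Equiv.subtypeEquivRight fun a => mem_fixedClasses Φ hf)

include hO hg in
theorem count_large {n : ℕ} (hn : 2 * g ≤ n + 1) :
    ((Φ.q : ℤ) - 1) * bW Φ (fun _ => (1 : ℤ)) n =
      (Nat.card (fixedBy Φ.sigma) : ℤ) * ((Φ.q : ℤ) ^ (n + 1 - g) - 1) := by
  have hf := finite_fixed Φ O hO g hg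
  have h := card_mul_sum (R := ℤ) Φ O hO hf (fun _ => 1) n
  simp only [Int.cast_id, mul_one, ell_rep_large O g hg hn] at h
  rw [bW, h, Finset.sum_const, nsmul_eq_mul, card_fixedClasses Φ hf]

theorem ell_divisor_ge (D : Divisor k F) : ell D ≤ ell (Φ.divisor D) := by
  let b := Module.finBasis k (riemannRochSpace D)
  have hli : LinearIndependent k
      (fun i => (⟨Φ.φ (b i : F), Φ.mem_rrSpace_map (b i).2⟩ : riemannRochSpace (Φ.divisor D))) := by
    rw [Fintype.linearIndependent_iff]
    intro c hc i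
    choose c' hc' using fun i => IsAlgClosed.exists_pow_nat_eq (c i) Φ.q_pos
    have h0 : (∑ i, c' i • b i : riemannRochSpace D) = 0 := by
      refine Subtype.ext (Φ.φ.injective ?_)
      have := congrArg Subtype.val hc
      simp only [AddSubmonoidClass.coe_finset_sum, SetLike.val_smul, ZeroMemClass.coe_zero,
        map_zero, map_sum, Φ.map_smul, hc'] at this ⊢
      exact this
    rw [← hc' i, Fintype.linearIndependent_iff.1 b.linearIndependent c' h0 i,
      zero_pow Φ.q_pos.ne']
  have := hli.fintype_card_le_finrank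
  simp only [Fintype.card_fin] at this
  simp only [ell]
  omega

include hO hg in
theorem count_canonical (hg1 : 1 ≤ g) :
    ((Φ.q : ℤ) - 1) * bW Φ (fun _ => (1 : ℤ)) (2 * g - 2) =
      (Nat.card (fixedBy Φ.sigma) : ℤ) * ((Φ.q : ℤ) ^ (g - 1) - 1) +
        (Φ.q : ℤ) ^ g - (Φ.q : ℤ) ^ (g - 1) := by
  obtain ⟨W, hW, hWl, -, hcan⟩ := exists_canonical_class (K := k) (F := F)
  have hf := finite_fixed Φ O hO g hg
  set n := 2 * g - 2 with hn
  set a₀ := cl O W with ha₀
  have hdn : ∀ a, Divisor.degree (rep O a n) = 2 * rGenus k F - 2 := fun a => by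
    rw [degree_rep]; omega
  have hell : ∀ a, (ell (rep O a n)).toNat = if a = a₀ then g else g - 1 := fun a => by
    have hiff : Divisor.IsPrincipal (W - rep O a n) ↔ a = a₀ := by
      rw [isPrincipal_sub_iff O (hW.trans (hdn a).symm), cl_rep, eq_comm]
    split_ifs with h
    · rw [(hcan _ (hdn a)).1 (hiff.2 h)]; omega
    · rw [(hcan _ (hdn a)).2 fun h' => h (hiff.1 h')]; omega
  have hfix : a₀ ∈ fixedClasses Φ hf := by
    rw [mem_fixedClasses, mem_fixedBy, ha₀, ← cl_divisor Φ O hO]
    have hd : Divisor.degree (Φ.divisor W) = 2 * rGenus k F - 2 := by rw [Φ.degree_divisor, hW]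
    by_contra hne
    have h1 := (hcan _ hd).2 fun hp => hne
      ((isPrincipal_sub_iff O (hW.trans hd.symm)).1 hp).symm
    have h2 := ell_divisor_ge Φ W
    omega
  have h := card_mul_sum (R := ℤ) Φ O hO hf (fun _ => 1) n
  simp only [Int.cast_id, mul_one, hell] at h
  have herase : ∀ a ∈ (fixedClasses Φ hf).erase a₀,
      (Φ.q : ℤ) ^ (if a = a₀ then g else g - 1) - 1 = (Φ.q : ℤ) ^ (g - 1) - 1 := fun a ha => by
    rw [if_neg (Finset.ne_of_mem_erase ha)]
  have hcard : (((fixedClasses Φ hf).erase a₀).card : ℤ) = (Nat.card (fixedBy Φ.sigma) : ℤ) - 1 := by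
    have h1 := Finset.card_erase_add_one hfix
    have h2 := card_fixedClasses Φ hf
    omega
  rw [bW, h, ← Finset.add_sum_erase _ _ hfix, if_pos rfl, Finset.sum_congr rfl herase,
    Finset.sum_const, nsmul_eq_mul, hcard]
  ring

theorem normEnd_apply (τ : AddMonoid.End (Pic0 k F)) (s : ℕ) (x : Pic0 k F) :
    normEnd τ s x = ∑ i ∈ Finset.range s, (τ ^ i) x := by
  induction s with
  | zero => rfl
  | succ s ih =>
    rw [normEnd, Finset.sum_range_succ, Finset.sum_range_succ, ← ih]
    rfl

include hO hg in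
theorem twist_of (N : ℕ → ℤ) (hN : ∀ j, 0 < j → N j = ((fixP Φ j).card : ℤ))
    (τ : AddMonoid.End (Pic0 k F)) (hτ : τ = Φ.sigma) (s : ℕ) (hs : 0 < s)
    (χ : AddChar (fixedBy τ) ℂ) (hχ : χ ≠ 1)
    (hnorm : ∀ a : fixedBy τ, (∃ x, (τ ^ s) x = x ∧ normEnd τ s x = a) → χ a = 1) :
    ∃ bc Nc : ℕ → ℂ, Recursion bc Nc ∧ (∀ n, 2 * g ≤ n + 1 → bc n = 0) ∧
      ∀ j, 0 < j → s ∣ j → Nc j = (N j : ℂ) := by
  subst hτ
  haveI hf := finite_fixed Φ O hO g hg
  haveI := Fintype.ofFinite (fixedBy Φ.sigma)
  let e : Pic0 k F → ℂ := fun a => if h : a ∈ fixedBy Φ.sigma then χ ⟨a, h⟩ else 1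
  let w : Divisor k F → ℂ := fun D => e (cl O D)
  refine ⟨bW Φ w, nW Φ w, recursion_weight Φ w ?_ ?_, fun n hn => ?_, fun j hj hsj => ?_⟩
  · show e (cl O 0) = 1
    rw [map_zero]
    simp only [e, dif_pos (zero_mem _)]
    exact χ.map_zero_eq_one
  · intro D E hD hE
    show e (cl O (D + E)) = e (cl O D) * e (cl O E)
    have h1 := cl_mem_fixed Φ O hO hD
    have h2 := cl_mem_fixed Φ O hO hE
    rw [map_add]
    simp only [e, dif_pos h1, dif_pos h2, dif_pos (add_mem h1 h2)]
    exact χ.map_add_eq_mul ⟨_, h1⟩ ⟨_, h2⟩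
  · have h := card_mul_sum Φ O hO hf e n
    simp only [ell_rep_large O g hg hn] at h
    rw [← Finset.mul_sum] at h
    have hsum : ∑ a ∈ fixedClasses Φ hf, e a = 0 := by
      rw [← AddChar.sum_eq_zero_of_ne_one hχ, Finset.sum_subtype (fixedClasses Φ hf)
        (fun a => mem_fixedClasses Φ hf) e]
      exact Finset.sum_congr rfl fun a _ => dif_pos a.2
    rw [hsum, mul_zero] at h
    exact (mul_eq_zero.1 h).resolve_left (Int.cast_ne_zero.2 (q_sub_one_ne Φ))
  · rw [hN j hj, nW, Int.cast_natCast, Finset.cast_card]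
    refine Finset.sum_congr rfl fun v hv => ?_
    rw [mem_fixP Φ hj] at hv
    obtain ⟨t, rfl⟩ := hsj
    show e (cl O (orb Φ (s * t) v)) = 1
    have hmem := cl_mem_fixed Φ O hO (orb_fixed Φ hv)
    simp only [e, dif_pos hmem]
    refine hnorm _ ⟨cl O (orb (Φ.pow s hs) t v), ?_, ?_⟩
    · have hv' : (Φ.pow s hs).place^[t] v = v := by
        rw [show ((Φ.pow s hs).place : Place k F → Place k F) = Φ.place^[s] from
          funext (Φ.place_pow s hs), ← Function.iterate_mul, hv]
      have hO' : (Φ.pow s hs).place O = O := by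
        rw [Φ.place_pow]; exact Function.iterate_fixed hO s
      rw [← Φ.sigma_pow s hs]
      exact mem_fixedBy.1 (cl_mem_fixed _ O hO' (orb_fixed _ hv'))
    · clear hnorm hv hj
      show normEnd Φ.sigma s _ = cl O (orb Φ (s * t) v)
      clear hmem
      rw [normEnd_apply]
      have hcl : ∀ (i : ℕ) (D : Divisor k F), (Φ.sigma ^ i) (cl O D) = cl O (Φ.divisor^[i] D) := by
        intro i D
        induction i with
        | zero => rfl
        | succ i ih =>
          rw [pow_succ', Function.iterate_succ_apply', cl_divisor Φ O hO, ← ih]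
          rfl
      simp only [hcl, ← map_sum]
      congr 1
      induction t with
      | zero =>
        refine (Finset.sum_eq_zero fun i _ => ?_).trans (by simp [orb])
        rw [show orb (Φ.pow s hs) 0 v = 0 by simp [orb]]
        exact Function.iterate_fixed (map_zero Φ.divisor) i
      | succ t ih =>
        rw [mul_add, mul_one]
        simp only [orb, Finset.sum_range_succ, Finset.sum_range_add]
        simp only [orb] at ih
        rw [← ih, ← Finset.sum_add_distrib]
        refine Finset.sum_congr rfl fun a _ => ?_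
        have hadd : ∀ (a : ℕ) (X Y : Divisor k F),
            Φ.divisor^[a] (X + Y) = Φ.divisor^[a] X + Φ.divisor^[a] Y := fun a X Y =>
          iterate_map_add Φ.divisor a X Y
        rw [hadd]
        congr 1
        rw [show ((Φ.pow s hs).place : Place k F → Place k F) = Φ.place^[s] from
          funext (Φ.place_pow s hs), ← Function.iterate_mul]
        have hsingle : ∀ (a : ℕ) (u : Place k F), Φ.divisor^[a] (Finsupp.single u (1 : ℤ)) =
            Finsupp.single (Φ.place^[a] u) 1 := fun a u => by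
          induction a with
          | zero => rfl
          | succ a iha =>
            rw [Function.iterate_succ_apply', Function.iterate_succ_apply', iha, Φ.divisor_single]
        rw [hsingle, add_comm (s * t), Function.iterate_add_apply]

theorem fixP_pow (r : ℕ) (hr : 0 < r) {j : ℕ} (hj : 0 < j) :
    fixP (Φ.pow r hr) j = fixP Φ (r * j) := by
  ext v
  rw [mem_fixP _ hj, mem_fixP _ (Nat.mul_pos hr hj),
    show ((Φ.pow r hr).place : Place k F → Place k F) = Φ.place^[r] from
      funext (Φ.place_pow r hr), ← Function.iterate_mul]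

/-- The counting data of a Frobenius fixing a place. -/
def countData : CountData (Pic0 k F) where
  σ := Φ.sigma
  q := Φ.q
  g := g
  one_lt_q := Φ.hQ.one_lt
  periodic := Φ.sigma_periodic
  finite_fixed r hr := by
    have hO' : (Φ.pow r hr).place O = O := by
      rw [Φ.place_pow]; exact Function.iterate_fixed hO r
    rw [← Φ.sigma_pow r hr]
    exact finite_fixed _ O hO' g hg
  b r n := if hr : 0 < r then bW (Φ.pow r hr) (fun _ => 1) n else 0
  N m := (fixP Φ m).card
  recursion r hr := by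
    have h := recursion_weight (Φ.pow r hr) (fun _ => (1 : ℤ)) rfl fun _ _ _ _ => (mul_one 1).symm
    refine ⟨by simp only [dif_pos hr]; exact h.1, fun n => ?_⟩
    simp only [dif_pos hr]
    rw [h.2 n]
    refine Finset.sum_congr rfl fun j hj => ?_
    congr 1
    simp [nW, fixP_pow Φ r hr (Finset.mem_Icc.1 hj).1]
  large r n hr hn := by
    have hO' : (Φ.pow r hr).place O = O := by
      rw [Φ.place_pow]; exact Function.iterate_fixed hO r
    have h := count_large _ O hO' g hg hn
    rw [dif_pos hr, ← Φ.sigma_pow r hr]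
    simp only [show (Φ.pow r hr).q = Φ.q ^ r from rfl, Nat.cast_pow, ← pow_mul] at h
    exact h
  canonical r hr hg1 := by
    have hO' : (Φ.pow r hr).place O = O := by
      rw [Φ.place_pow]; exact Function.iterate_fixed hO r
    have h := count_canonical _ O hO' g hg hg1
    rw [dif_pos hr, ← Φ.sigma_pow r hr]
    simp only [show (Φ.pow r hr).q = Φ.q ^ r from rfl, Nat.cast_pow, ← pow_mul] at h
    exact h
  twist r s hr hs χ hχ hnorm := by
    have hO' : (Φ.pow r hr).place O = O := by
      rw [Φ.place_pow]; exact Function.iterate_fixed hO r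
    refine twist_of _ O hO' g hg (fun j => ((fixP Φ (r * j)).card : ℤ))
      (fun j hj => by rw [fixP_pow Φ r hr hj]) (Φ.sigma ^ r) (Φ.sigma_pow r hr).symm s hs.pos χ hχ
      fun a ⟨x, hx, hxa⟩ => hnorm a ⟨x, ?_, hxa⟩
    rwa [mem_fixedBy, pow_mul]

end FLTAgent.Jac27.Finite.Geom

namespace FLTAgent.Jac27.Finite

open AlgebraicCurve FLTAgent.Curves FLTAgent.Specialization

universe u v

/-- A curve over an algebraic closure of a finite field has counting data. -/
theorem targetCountData : TargetCountData.{u, v} := by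
  intro p _ k _ _ _ _ F _ _ _
  obtain ⟨Φ, ⟨e, he⟩, O, hO⟩ := Geom.exists_frob_fixed p k F
  exact ⟨Geom.countData Φ O hO (rGenus k F).toNat (Int.toNat_of_nonneg Geom.rGenus_nonneg),
    rfl, e, he⟩

end FLTAgent.Jac27.Finite
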